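import Mathlib
import Fermat.Prelude.Def_ModularCurve_X0ModL
import Fermat.Prelude.Thm_ModularCurve_coeffMap_qExpand

/-!
# S28, WP5: the substitution `t ↦ c * t` on Laurent series

`twist c` is the ring endomorphism of `LaurentSeries A` multiplying the coefficient of `t ^ n` by
`c ^ n` (for a unit `c`).  We also set up a small calculus of "leading terms":
`IsLead f n c` says that `f = c * t ^ n * (1 + O(t))`.
-/

set_option autoImplicit false

noncomputable section

namespace Fermat.Agent.S28.ModEq

open HahnSeries ModularCurve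

variable {A : Type*} [CommRing A]

/-- Coefficients of a product, summing over any PWO sets containing the supports. -/
theorem coeff_mul_of_support_subset {x y : LaurentSeries A} {s t : Set ℤ} (hs : s.IsPWO)
    (ht : t.IsPWO) (hxs : x.support ⊆ s) (hyt : y.support ⊆ t) (a : ℤ) :
    (x * y).coeff a = ∑ ij ∈ Finset.antidiagonal hs ht a, x.coeff ij.1 * y.coeff ij.2 := by
  rw [HahnSeries.coeff_mul_left' hs hxs]
  apply Finset.sum_subset
  · intro ij hij
    rw [Finset.mem_antidiagonal] at hij ⊢
    exact ⟨hij.1, hyt hij.2.1, hij.2.2⟩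
  · intro ij hij hnot
    rw [Finset.mem_antidiagonal] at hij hnot
    have h0 : y.coeff ij.2 = 0 := by
      by_contra h
      exact hnot ⟨hij.1, h, hij.2.2⟩
    rw [h0, mul_zero]

/-- The underlying function of `twist`. -/
def twistFun (c : Aˣ) (f : LaurentSeries A) : LaurentSeries A where
  coeff n := ((c ^ n : Aˣ) : A) * f.coeff n
  isPWO_support' := f.isPWO_support.mono (fun n hn => by
    rw [Function.mem_support] at hn
    rw [HahnSeries.mem_support]
    exact fun h => hn (by rw [h, mul_zero]))

@[simp]
theorem twistFun_coeff (c : Aˣ) (f : LaurentSeries A) (n : ℤ) :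
    (twistFun c f).coeff n = ((c ^ n : Aˣ) : A) * f.coeff n := rfl

theorem twistFun_support_subset (c : Aˣ) (f : LaurentSeries A) :
    (twistFun c f).support ⊆ f.support := fun n hn => by
  rw [HahnSeries.mem_support] at hn ⊢
  exact fun h => hn (by rw [twistFun_coeff, h, mul_zero])

/-- The substitution `t ↦ c * t` on Laurent series, for a unit `c`. -/
def twist (c : Aˣ) : LaurentSeries A →+* LaurentSeries A where
  toFun := twistFun c
  map_one' := by
    ext n
    rw [twistFun_coeff, HahnSeries.coeff_one]
    split_ifs with h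
    · subst h; simp
    · simp
  map_mul' f g := by
    ext n
    rw [twistFun_coeff, HahnSeries.coeff_mul,
      coeff_mul_of_support_subset f.isPWO_support g.isPWO_support
        (twistFun_support_subset c f) (twistFun_support_subset c g), Finset.mul_sum]
    refine Finset.sum_congr rfl fun ij hij => ?_
    rw [Finset.mem_antidiagonal] at hij
    rw [twistFun_coeff, twistFun_coeff, ← hij.2.2, zpow_add, Units.val_mul]
    ring
  map_zero' := by
    ext n
    simp
  map_add' f g := by
    ext n
    simp [mul_add]

@[simp]
theorem twist_coeff (c : Aˣ) (f : LaurentSeries A) (n : ℤ) :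
    (twist c f).coeff n = ((c ^ n : Aˣ) : A) * f.coeff n := rfl

@[simp]
theorem twist_one (f : LaurentSeries A) : twist (1 : Aˣ) f = f := by
  ext n
  simp

theorem twist_mul_apply (c d : Aˣ) (f : LaurentSeries A) :
    twist (c * d) f = twist c (twist d f) := by
  ext n
  simp [mul_zpow, mul_assoc]

theorem twist_pow_apply (c : Aˣ) (k : ℕ) (f : LaurentSeries A) :
    twist (c ^ k) f = (twist c)^[k] f := by
  induction k with
  | zero => simp
  | succ k ih => rw [pow_succ', twist_mul_apply, ih, Function.iterate_succ_apply']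

@[simp]
theorem twist_single (c : Aˣ) (n : ℤ) (r : A) :
    twist c (HahnSeries.single n r) = HahnSeries.single n (((c ^ n : Aˣ) : A) * r) := by
  ext m
  rw [twist_coeff]
  rcases eq_or_ne m n with rfl | hm
  · simp
  · simp [HahnSeries.coeff_single_of_ne hm]

/-- `twist` on power series is `PowerSeries.rescale`. -/
theorem twist_ofPowerSeries (c : Aˣ) (g : PowerSeries A) :
    twist c (HahnSeries.ofPowerSeries ℤ A g) =
      HahnSeries.ofPowerSeries ℤ A (PowerSeries.rescale (c : A) g) := by
  ext k
  rw [twist_coeff]
  rcases le_or_gt 0 k with hk | hk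
  · lift k to ℕ using hk
    rw [HahnSeries.ofPowerSeries_apply_coeff, HahnSeries.ofPowerSeries_apply_coeff,
      PowerSeries.coeff_rescale, zpow_natCast, Units.val_pow_eq_pow_val]
  · rw [ofPowerSeries_coeff_of_neg _ hk, ofPowerSeries_coeff_of_neg _ hk, mul_zero]

/-- `twist` commutes with change of coefficients. -/
theorem coeffMap_twist {B : Type*} [CommRing B] (φ : A →+* B) (c : Aˣ) (f : LaurentSeries A) :
    coeffMap φ (twist c f) = twist (Units.map (φ : A →* B) c) (coeffMap φ f) := by
  ext n
  simp only [coeffMap_coeff, twist_coeff, map_mul]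
  congr 1
  rw [← map_zpow]
  rfl

/-- `twist` and the substitution `t ↦ t ^ n`. -/
theorem twist_qExpand (c : Aˣ) (n : ℕ) [NeZero n] (f : LaurentSeries A) :
    twist c (qExpand A n f) = qExpand A n (twist (c ^ n) f) := by
  ext k
  rw [twist_coeff]
  by_cases hk : (n : ℤ) ∣ k
  · obtain ⟨m, rfl⟩ := hk
    rw [qExpand_coeff_mul, qExpand_coeff_mul, twist_coeff, ← zpow_natCast, ← zpow_mul]
  · rw [qExpand_coeff_of_not_dvd n f hk, qExpand_coeff_of_not_dvd n _ hk, mul_zero]

/-- A series in `t ^ n` is fixed by `t ↦ c * t` when `c ^ n = 1`. -/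
theorem twist_qExpand_of_pow_eq_one (c : Aˣ) (n : ℕ) [NeZero n] (hc : c ^ n = 1)
    (f : LaurentSeries A) : twist c (qExpand A n f) = qExpand A n f := by
  rw [twist_qExpand, hc, twist_one]

end Fermat.Agent.S28.ModEq
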