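import Fermat.Agent.S28.ModEq.Conj

/-!
# S28, WP5: the exported data of the modular equation of prime level `p`

`ModEqData p` packages the `ζ`-free, integral output of WP5:

* `Φ` : the modular polynomial (outer variable `X`, inner variable `j`), monic of degree `p + 1`,
  with `Φ(j(q^p), j(q)) = 0` (`E1`) and `Φ(j(q), j(q^p)) = 0` (`E2`);
* `Ψ` : the monic polynomial of degree `p + 1` over `ℤ[j]` killing
  `yInf = p ^ 12 * Δ(q^p) / Δ(q)` (`E3`), with constant term `± κ`, `κ ^ 2 = p ^ 24`;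
* `S` : the polynomial with `yInf * S(j(q^p), j(q)) = κ * (∂Φ/∂X)(j(q^p), j(q))` (`E5`);
* `E6` : the leading coefficient of `(∂Φ/∂X)(j(q^p), j(q))` (at `q ^ (-(p * p))`) is `1`.
-/

set_option autoImplicit false

noncomputable section

namespace Fermat.Agent.S28.ModEq

open HahnSeries ModularCurve

/-- `y_∞ = p ^ 12 * Δ(q ^ p) / Δ(q)` over `A`. -/
def yInf (A : Type*) [CommRing A] (p : ℕ) [NeZero p] : LaurentSeries A :=
  HahnSeries.C ((p : A) ^ 12) * qExpand A p (DA A) * DAinv A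

/-- The `ζ`-free integral output of WP5 for the prime `p`. -/
structure ModEqData (p : ℕ) [NeZero p] where
  /-- the modular polynomial `Φ(X, j)` -/
  Φ : Polynomial (Polynomial ℤ)
  /-- the polynomial `Ψ(X, j)` of the modular unit `yInf` -/
  Ψ : Polynomial (Polynomial ℤ)
  /-- the mixed polynomial `S(X, j)` -/
  S : Polynomial (Polynomial ℤ)
  /-- the constant `κ = ± p ^ 12` -/
  κ : ℤ
  Φ_monic : Φ.Monic
  Φ_natDegree : Φ.natDegree = p + 1
  Ψ_monic : Ψ.Monic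
  Ψ_natDegree : Ψ.natDegree = p + 1
  κ_sq : κ ^ 2 = (p : ℤ) ^ 24
  Ψ_coeff_zero : Ψ.coeff 0 = Polynomial.C ((-1) ^ (p + 1) * κ)
  E1 : Φ.eval₂ (evalAt (RingHom.id ℤ) (jqModC ℤ)) (jqNModC ℤ p) = 0
  E2 : Φ.eval₂ (evalAt (RingHom.id ℤ) (jqNModC ℤ p)) (jqModC ℤ) = 0
  E3 : Ψ.eval₂ (evalAt (RingHom.id ℤ) (jqModC ℤ)) (yInf ℤ p) = 0
  E5 : yInf ℤ p * S.eval₂ (evalAt (RingHom.id ℤ) (jqModC ℤ)) (jqNModC ℤ p) =
    HahnSeries.C κ *
      (Polynomial.derivative Φ).eval₂ (evalAt (RingHom.id ℤ) (jqModC ℤ)) (jqNModC ℤ p)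
  E6 : ((Polynomial.derivative Φ).eval₂ (evalAt (RingHom.id ℤ) (jqModC ℤ))
      (jqNModC ℤ p)).coeff (-((p : ℤ) * p)) = 1

theorem isLead_yInf (A : Type*) [CommRing A] (p : ℕ) [NeZero p] :
    IsLead (yInf A p) ((p : ℤ) - 1) ((p : A) ^ 12) := by
  have h1 := (isLead_qExpand p (isLead_DA A)).C_mul ((p : A) ^ 12)
  have h2 := h1.mul (isLead_DAinv A)
  rw [mul_one, mul_one, mul_one] at h2
  exact h2

theorem coeffMap_yInf {A B : Type*} [CommRing A] [CommRing B] (φ : A →+* B) (p : ℕ) [NeZero p] :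
    coeffMap φ (yInf A p) = yInf B p := by
  unfold yInf
  rw [map_mul, map_mul, coeffMap_qExpand, coeffMap_DA, coeffMap_DAinv, HahnSeries.C_apply,
    HahnSeries.C_apply, coeffMap_single, map_pow, map_natCast]

end Fermat.Agent.S28.ModEq
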