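import Fermat.Agent.S28.ModEq.Lead

/-!
# S28, WP5: the `p + 1` conjugates of level-one forms and the formal Hecke identity

Over a commutative ring `A` with a unit `ζ` such that `1 + ζ + ⋯ + ζ ^ (p - 1) = 0`, we define
the conjugates (in the variable `t`, `q = t ^ p`) of the weight-12 forms `E₄³`, `Δ` and of `j`:
the conjugate `none` is `p ^ 12 * f (t ^ (p * p))` and the conjugate `some b` is `f (ζ ^ b * t)`.
The sum over all conjugates of a product of weight-12 forms is `p` times the `t ↦ t ^ p`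
substitution of its formal Hecke transform.
-/

set_option autoImplicit false

noncomputable section

namespace Fermat.Agent.S28.ModEq

open HahnSeries ModularCurve

section Base

variable (A : Type*) [CommRing A]

/-- `Δ(t) = t * ∏ (1 - t ^ n) ^ 24` over `A`. -/
def DA : LaurentSeries A :=
  HahnSeries.single (1 : ℤ) (1 : A) *
    HahnSeries.ofPowerSeries ℤ A (dedekindEtaUnit.map (Int.castRingHom A))

/-- The inverse of `Δ(t)` over `A`. -/
def DAinv : LaurentSeries A :=
  HahnSeries.single (-1 : ℤ) (1 : A) *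
    HahnSeries.ofPowerSeries ℤ A (dedekindEtaUnitInv.map (Int.castRingHom A))

/-- `E₄(t) ^ 3` over `A`. -/
def EA : LaurentSeries A :=
  HahnSeries.ofPowerSeries ℤ A (eisenstein4.map (Int.castRingHom A)) ^ 3

theorem DA_mul_DAinv : DA A * DAinv A = 1 := by
  have h : HahnSeries.ofPowerSeries ℤ A (dedekindEtaUnit.map (Int.castRingHom A)) *
      HahnSeries.ofPowerSeries ℤ A (dedekindEtaUnitInv.map (Int.castRingHom A)) = 1 := by
    rw [← RingHom.map_mul, ← RingHom.map_mul, dedekindEtaUnit_mul_inv, RingHom.map_one,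
      RingHom.map_one]
  have h2 : HahnSeries.single (1 : ℤ) (1 : A) * HahnSeries.single (-1 : ℤ) (1 : A) = 1 := by
    rw [HahnSeries.single_mul_single]
    simp
  calc DA A * DAinv A
      = (HahnSeries.single (1 : ℤ) (1 : A) * HahnSeries.single (-1 : ℤ) (1 : A)) *
        (HahnSeries.ofPowerSeries ℤ A (dedekindEtaUnit.map (Int.castRingHom A)) *
          HahnSeries.ofPowerSeries ℤ A (dedekindEtaUnitInv.map (Int.castRingHom A))) := by
        unfold DA DAinv; ring
    _ = 1 := by rw [h, h2, mul_one]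

theorem jqModC_eq : jqModC A = EA A * DAinv A := by
  unfold jqModC EA DAinv jNum
  rw [RingHom.map_mul, RingHom.map_pow, RingHom.map_mul, RingHom.map_pow]
  ring

theorem jqModC_mul_DA : jqModC A * DA A = EA A := by
  rw [jqModC_eq, mul_assoc, mul_comm (DAinv A), DA_mul_DAinv, mul_one]

theorem isLead_DA : IsLead (DA A) 1 1 :=
  ⟨_, by
    rw [← PowerSeries.coeff_zero_eq_constantCoeff_apply, PowerSeries.coeff_map,
      PowerSeries.coeff_zero_eq_constantCoeff_apply, constantCoeff_dedekindEtaUnit, map_one], rfl⟩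

theorem isLead_DAinv : IsLead (DAinv A) (-1) 1 :=
  ⟨_, by
    rw [← PowerSeries.coeff_zero_eq_constantCoeff_apply, PowerSeries.coeff_map,
      PowerSeries.coeff_zero_eq_constantCoeff_apply, constantCoeff_dedekindEtaUnitInv, map_one],
    rfl⟩

theorem isLead_jqModC : IsLead (jqModC A) (-1) 1 :=
  ⟨_, by
    rw [← PowerSeries.coeff_zero_eq_constantCoeff_apply, PowerSeries.coeff_map,
      PowerSeries.coeff_zero_eq_constantCoeff_apply, constantCoeff_jNum, map_one], rfl⟩

variable {A}

theorem map_map_intCast {B : Type*} [CommRing B] (φ : A →+* B) (f : PowerSeries ℤ) :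
    (f.map (Int.castRingHom A)).map φ = f.map (Int.castRingHom B) := by
  ext n
  simp

theorem coeffMap_DA {B : Type*} [CommRing B] (φ : A →+* B) : coeffMap φ (DA A) = DA B := by
  unfold DA
  rw [map_mul, coeffMap_single, map_one, coeffMap_ofPowerSeries, map_map_intCast]

theorem coeffMap_DAinv {B : Type*} [CommRing B] (φ : A →+* B) :
    coeffMap φ (DAinv A) = DAinv B := by
  unfold DAinv
  rw [map_mul, coeffMap_single, map_one, coeffMap_ofPowerSeries, map_map_intCast]

theorem coeffMap_EA {B : Type*} [CommRing B] (φ : A →+* B) : coeffMap φ (EA A) = EA B := by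
  unfold EA
  rw [map_pow, coeffMap_ofPowerSeries, map_map_intCast]

end Base

section Sums

variable {A : Type*} [CommRing A]

/-- Sums of powers of a root of `1 + X + ⋯ + X ^ (p - 1)`. -/
theorem sum_pow_pow_eq {p : ℕ} (hp : p.Prime) (ζ : A)
    (hζ : ∑ b ∈ Finset.range p, ζ ^ b = 0) (n : ℕ) :
    ∑ b ∈ Finset.range p, (ζ ^ b) ^ n = if p ∣ n then (p : A) else 0 := by
  have hζp : ζ ^ p = 1 := by
    have h := mul_geom_sum ζ p
    rw [hζ, mul_zero] at h
    exact (sub_eq_zero.mp h.symm)
  split_ifs with hn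
  · obtain ⟨m, rfl⟩ := hn
    have : ∀ b ∈ Finset.range p, (ζ ^ b) ^ (p * m) = 1 := fun b _ => by
      rw [← pow_mul, mul_comm b (p * m), mul_assoc, pow_mul, hζp, one_pow]
    rw [Finset.sum_congr rfl this]
    simp
  · have hcop : Nat.Coprime n p := (Nat.Prime.coprime_iff_not_dvd hp).mpr hn |>.symm
    obtain ⟨n', -, hn'⟩ := Nat.exists_mul_mod_eq_one_of_coprime hcop hp.one_lt
    rw [← hζ]
    refine Finset.sum_nbij' (fun b => (b * n) % p) (fun c => (c * n') % p) ?_ ?_ ?_ ?_ ?_
    · intro b _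
      exact Finset.mem_range.mpr (Nat.mod_lt _ hp.pos)
    · intro c _
      exact Finset.mem_range.mpr (Nat.mod_lt _ hp.pos)
    · intro b hb
      have hb' := Finset.mem_range.mp hb
      show (b * n) % p * n' % p = b
      rw [Nat.mod_mul_mod, mul_assoc, Nat.mul_mod, hn', mul_one, Nat.mod_mod,
        Nat.mod_eq_of_lt hb']
    · intro c hc
      have hc' := Finset.mem_range.mp hc
      show (c * n') % p * n % p = c
      rw [Nat.mod_mul_mod, mul_assoc, mul_comm n' n, Nat.mul_mod, hn', mul_one, Nat.mod_mod,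
        Nat.mod_eq_of_lt hc']
    · intro b _
      show (ζ ^ b) ^ n = ζ ^ ((b * n) % p)
      rw [← pow_mul, pow_eq_pow_mod (b * n) hζp]

/-- `t ↦ t ^ m` applied to a power series has no negative coefficients. -/
theorem qExpand_ofPowerSeries_coeff_neg (m : ℕ) [NeZero m] (u : PowerSeries A) {k : ℤ}
    (hk : k < 0) : (qExpand A m (HahnSeries.ofPowerSeries ℤ A u)).coeff k = 0 := by
  have hm : (0 : ℤ) < m := by exact_mod_cast Nat.pos_of_ne_zero (NeZero.ne m)
  by_cases hdvd : (m : ℤ) ∣ k
  · obtain ⟨k', rfl⟩ := hdvd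
    rw [qExpand_coeff_mul]
    refine ofPowerSeries_coeff_of_neg _ ?_
    by_contra hk'
    have := mul_nonneg hm.le (not_lt.mp hk')
    omega
  · exact qExpand_coeff_of_not_dvd m _ hdvd

variable (p : ℕ) [NeZero p]

/-- The `U_p` part: averaging over the twists by the powers of `ζ`. -/
theorem sum_twist_ofPowerSeries (hp : p.Prime) (ζ : Aˣ)
    (hζ : ∑ b ∈ Finset.range p, (ζ : A) ^ b = 0) (f : PowerSeries A) :
    ∑ b ∈ Finset.range p, twist (ζ ^ b) (HahnSeries.ofPowerSeries ℤ A f) =
      HahnSeries.C (p : A) * qExpand A p (HahnSeries.ofPowerSeries ℤ A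
        (PowerSeries.mk fun n => PowerSeries.coeff (p * n) f)) := by
  ext k
  rw [HahnSeries.coeff_sum, coeff_C_mul]
  simp only [twist_coeff]
  rcases le_or_gt 0 k with hk | hk
  · lift k to ℕ using hk
    rw [← Finset.sum_mul, HahnSeries.ofPowerSeries_apply_coeff]
    have hsum : ∑ b ∈ Finset.range p, (((ζ ^ b) ^ (k : ℤ) : Aˣ) : A) =
        if p ∣ k then (p : A) else 0 := by
      rw [← sum_pow_pow_eq hp (ζ : A) hζ k]
      refine Finset.sum_congr rfl fun b _ => ?_
      rw [zpow_natCast, Units.val_pow_eq_pow_val, Units.val_pow_eq_pow_val]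
    rw [hsum]
    split_ifs with hdvd
    · obtain ⟨m, rfl⟩ := hdvd
      rw [Nat.cast_mul, qExpand_coeff_mul, HahnSeries.ofPowerSeries_apply_coeff,
        PowerSeries.coeff_mk]
    · rw [zero_mul, qExpand_coeff_of_not_dvd p _ (by exact_mod_cast hdvd), mul_zero]
  · rw [qExpand_ofPowerSeries_coeff_neg p _ hk, mul_zero]
    refine Finset.sum_eq_zero fun b _ => ?_
    rw [ofPowerSeries_coeff_of_neg _ hk, mul_zero]

/-- The `V_p` part. -/
theorem ofPowerSeries_V (f : PowerSeries A) :
    HahnSeries.ofPowerSeries ℤ A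
        (PowerSeries.mk fun n => if p ∣ n then PowerSeries.coeff (n / p) f else 0) =
      qExpand A p (HahnSeries.ofPowerSeries ℤ A f) := by
  ext k
  rcases le_or_gt 0 k with hk | hk
  · lift k to ℕ using hk
    rw [HahnSeries.ofPowerSeries_apply_coeff, PowerSeries.coeff_mk]
    split_ifs with hdvd
    · obtain ⟨m, rfl⟩ := hdvd
      rw [Nat.cast_mul, qExpand_coeff_mul, HahnSeries.ofPowerSeries_apply_coeff,
        Nat.mul_div_cancel_left _ (Nat.pos_of_ne_zero (NeZero.ne p))]
    · rw [qExpand_coeff_of_not_dvd p _ (by exact_mod_cast hdvd)]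
  · rw [qExpand_ofPowerSeries_coeff_neg p _ hk, ofPowerSeries_coeff_of_neg _ hk]

/-- The formal Hecke operator `U_p + p ^ (k - 1) V_p` on power series over `A`. -/
def heckeA (k : ℕ) (f : PowerSeries A) : PowerSeries A :=
  PowerSeries.mk fun n => PowerSeries.coeff (p * n) f +
    if p ∣ n then (p : A) ^ (k - 1) * PowerSeries.coeff (n / p) f else 0

/-- The formal Hecke identity: the sum over the `p + 1` conjugates. -/
theorem hecke_identity (hp : p.Prime) (ζ : Aˣ) (hζ : ∑ b ∈ Finset.range p, (ζ : A) ^ b = 0)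
    (k : ℕ) (hk : 1 ≤ k) (f : PowerSeries A) :
    HahnSeries.C ((p : A) ^ k) * qExpand A (p * p) (HahnSeries.ofPowerSeries ℤ A f) +
      ∑ b ∈ Finset.range p, twist (ζ ^ b) (HahnSeries.ofPowerSeries ℤ A f) =
    HahnSeries.C (p : A) * qExpand A p (HahnSeries.ofPowerSeries ℤ A (heckeA p k f)) := by
  have hsplit : heckeA p k f = (PowerSeries.mk fun n => PowerSeries.coeff (p * n) f) +
      PowerSeries.C ((p : A) ^ (k - 1)) *
        (PowerSeries.mk fun n => if p ∣ n then PowerSeries.coeff (n / p) f else 0) := by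
    ext n
    simp only [heckeA, PowerSeries.coeff_mk, map_add, PowerSeries.coeff_C_mul, mul_ite, mul_zero]
  rw [hsplit, RingHom.map_add, RingHom.map_add, mul_add, ← sum_twist_ofPowerSeries p hp ζ hζ,
    RingHom.map_mul, HahnSeries.ofPowerSeries_C, RingHom.map_mul, qExpand_C, ofPowerSeries_V,
    qExpand_qExpand, ← mul_assoc, ← RingHom.map_mul, ← pow_succ', Nat.sub_add_cancel hk, add_comm]

end Sums

section Conjugates

variable {A : Type*} [CommRing A] (p : ℕ) [NeZero p] (ζ : Aˣ)

/-- The ring-homomorphism part of the conjugate `g`: `t ↦ t ^ (p * p)` for `none` and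
`t ↦ ζ ^ b * t` for `some b`. -/
def conjHom : Option (Fin p) → (LaurentSeries A →+* LaurentSeries A)
  | none => qExpand A (p * p)
  | some b => twist (ζ ^ (b : ℕ))

/-- The weight-12 factor of the conjugate `g`. -/
def wt (A : Type*) [CommRing A] (p : ℕ) : Option (Fin p) → A
  | none => (p : A) ^ 12
  | some _ => 1

/-- The conjugates of `Δ`. -/
def Dg (g : Option (Fin p)) : LaurentSeries A := HahnSeries.C (wt A p g) * conjHom p ζ g (DA A)

/-- The conjugates of `E₄³`. -/
def Eg (g : Option (Fin p)) : LaurentSeries A := HahnSeries.C (wt A p g) * conjHom p ζ g (EA A)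

/-- The conjugates of `j`. -/
def jg (g : Option (Fin p)) : LaurentSeries A := conjHom p ζ g (jqModC A)

/-- `j (t ^ p)`. -/
def jbase (A : Type*) [CommRing A] (p : ℕ) [NeZero p] : LaurentSeries A := qExpand A p (jqModC A)

/-- `Δ (t ^ p)⁻¹`. -/
def DbaseInv (A : Type*) [CommRing A] (p : ℕ) [NeZero p] : LaurentSeries A :=
  qExpand A p (DAinv A)

/-- `y_g = Δ_g / Δ (t ^ p)`. -/
def yg (g : Option (Fin p)) : LaurentSeries A := Dg p ζ g * DbaseInv A p

/-- `z_g = (E₄³)_g / Δ (t ^ p)`. -/
def zg (g : Option (Fin p)) : LaurentSeries A := Eg p ζ g * DbaseInv A p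

theorem Eg_eq (g : Option (Fin p)) : Eg p ζ g = jg p ζ g * Dg p ζ g := by
  unfold Eg jg Dg
  rw [← jqModC_mul_DA, map_mul]
  ring

theorem zg_eq (g : Option (Fin p)) : zg p ζ g = jg p ζ g * yg p ζ g := by
  unfold zg yg
  rw [Eg_eq]
  ring

theorem qExpand_DA_mul_DbaseInv : qExpand A p (DA A) * DbaseInv A p = 1 := by
  unfold DbaseInv
  rw [← map_mul, DA_mul_DAinv, map_one]

theorem qExpand_EA_mul_DbaseInv : qExpand A p (EA A) * DbaseInv A p = jbase A p := by
  unfold DbaseInv jbase
  rw [← map_mul, jqModC_eq]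

theorem isLead_jbase : IsLead (jbase A p) (-(p : ℤ)) 1 := by
  have h := isLead_qExpand p (isLead_jqModC A)
  rwa [mul_neg, mul_one] at h

/-- The sum over the conjugates of a monomial in the weight-12 forms is a Hecke transform. -/
theorem sum_Eg_pow_mul_Dg_pow (hp : p.Prime) (hζ : ∑ b ∈ Finset.range p, (ζ : A) ^ b = 0)
    (a m : ℕ) (ha : a ≤ m) (hm : 1 ≤ m) :
    ∑ g, Eg p ζ g ^ a * Dg p ζ g ^ (m - a) =
      HahnSeries.C (p : A) * qExpand A p (HahnSeries.ofPowerSeries ℤ A
        (heckeA p (12 * m) ((eisenstein4.map (Int.castRingHom A)) ^ (3 * a) *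
          (PowerSeries.X * dedekindEtaUnit.map (Int.castRingHom A)) ^ (m - a)))) := by
  have hF : HahnSeries.ofPowerSeries ℤ A ((eisenstein4.map (Int.castRingHom A)) ^ (3 * a) *
      (PowerSeries.X * dedekindEtaUnit.map (Int.castRingHom A)) ^ (m - a)) =
      EA A ^ a * DA A ^ (m - a) := by
    unfold EA DA
    rw [RingHom.map_mul, RingHom.map_pow, RingHom.map_pow, RingHom.map_mul,
      HahnSeries.ofPowerSeries_X, pow_mul]
  rw [← hecke_identity p hp ζ hζ (12 * m) (by omega), hF, Fintype.sum_option,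
    ← Fin.sum_univ_eq_sum_range
      (fun b => twist (ζ ^ b) (EA A ^ a * DA A ^ (m - a))) p]
  congr 1
  · obtain ⟨d, rfl⟩ := Nat.exists_eq_add_of_le ha
    rw [Nat.add_sub_cancel_left]
    unfold Eg Dg
    simp only [conjHom, wt, map_mul, map_pow]
    ring
  · refine Finset.sum_congr rfl fun b _ => ?_
    unfold Eg Dg
    simp only [conjHom, wt, map_one, one_mul, map_mul, map_pow]

/-- The mixed power sums of the `z_g` and `y_g`. -/
theorem sum_zg_pow_mul_yg_pow (hp : p.Prime) (hζ : ∑ b ∈ Finset.range p, (ζ : A) ^ b = 0)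
    (a m : ℕ) (ha : a ≤ m) (hm : 1 ≤ m) :
    ∑ g, zg p ζ g ^ a * yg p ζ g ^ (m - a) =
      HahnSeries.C (p : A) * qExpand A p (HahnSeries.ofPowerSeries ℤ A
        (heckeA p (12 * m) ((eisenstein4.map (Int.castRingHom A)) ^ (3 * a) *
          (PowerSeries.X * dedekindEtaUnit.map (Int.castRingHom A)) ^ (m - a)))) *
        DbaseInv A p ^ m := by
  rw [← sum_Eg_pow_mul_Dg_pow p ζ hp hζ a m ha hm, Finset.sum_mul]
  refine Finset.sum_congr rfl fun g _ => ?_
  obtain ⟨d, rfl⟩ := Nat.exists_eq_add_of_le ha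
  rw [Nat.add_sub_cancel_left]
  unfold zg yg
  ring

end Conjugates

end Fermat.Agent.S28.ModEq
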