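import Mathlib

/-!
# S28, WP5: Newton's identities for a subring closed under division by positive integers

If all power sums of a finite family lie in a subring `B` that is closed under division by
positive integers, then so do all elementary symmetric functions, i.e. all coefficients of
`∏ (X - u i)`.
-/

set_option autoImplicit false

namespace Fermat.Agent.S28.ModEq

/-! ### Generalities on products of linear factors -/

section Generalities

variable {R : Type*} [CommRing R] {ι : Type*} [DecidableEq ι]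

theorem eval_derivative_prod_X_sub_C (s : Finset ι) (x : ι → R) {i₀ : ι} (hi₀ : i₀ ∈ s) :
    (Polynomial.derivative (∏ i ∈ s, (Polynomial.X - Polynomial.C (x i)))).eval (x i₀) =
      ∏ i ∈ s.erase i₀, (x i₀ - x i) := by
  rw [Polynomial.derivative_prod_finset, Polynomial.eval_finsetSum, Finset.sum_eq_single i₀]
  · simp [Polynomial.eval_prod]
  · intro i hi hne
    rw [Polynomial.eval_mul, Polynomial.eval_prod,
      Finset.prod_eq_zero (Finset.mem_erase.mpr ⟨Ne.symm hne, hi₀⟩) (by simp), zero_mul]
  · intro h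
    exact absurd hi₀ h

omit [DecidableEq ι] in
theorem coeff_zero_prod_X_sub_C (s : Finset ι) (x : ι → R) :
    (∏ i ∈ s, (Polynomial.X - Polynomial.C (x i))).coeff 0 = ∏ i ∈ s, (-x i) := by
  rw [Polynomial.coeff_zero_eq_eval_zero, Polynomial.eval_prod]
  simp

theorem coeff_one_prod_X_sub_C (s : Finset ι) (x : ι → R) :
    (∏ i ∈ s, (Polynomial.X - Polynomial.C (x i))).coeff 1 =
      ∑ i ∈ s, ∏ j ∈ s.erase i, (-x j) := by
  have h := Polynomial.coeff_derivative (∏ i ∈ s, (Polynomial.X - Polynomial.C (x i))) 0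
  rw [zero_add, Nat.cast_zero, zero_add, mul_one] at h
  rw [← h, Polynomial.coeff_zero_eq_eval_zero, Polynomial.derivative_prod_finset,
    Polynomial.eval_finsetSum]
  refine Finset.sum_congr rfl fun i _ => ?_
  simp [Polynomial.eval_prod]

theorem mul_eval_sum_prod_erase [Fintype ι] (y j : ι → R) (g : ι) :
    y g * (∑ g', ∏ h ∈ Finset.univ.erase g',
        (Polynomial.C (y h) * (Polynomial.X - Polynomial.C (j h)))).eval (j g) =
      (∏ h, y h) *
        (Polynomial.derivative (∏ h, (Polynomial.X - Polynomial.C (j h)))).eval (j g) := by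
  rw [Polynomial.eval_finsetSum, Finset.sum_eq_single g,
    eval_derivative_prod_X_sub_C Finset.univ _ (Finset.mem_univ g), Polynomial.eval_prod]
  · simp only [Polynomial.eval_mul, Polynomial.eval_C, Polynomial.eval_sub, Polynomial.eval_X]
    rw [Finset.prod_mul_distrib, ← mul_assoc, Finset.mul_prod_erase Finset.univ _
      (Finset.mem_univ g)]
  · intro g' _ hne
    rw [Polynomial.eval_prod]
    exact Finset.prod_eq_zero (Finset.mem_erase.mpr ⟨Ne.symm hne, Finset.mem_univ g⟩) (by simp)
  · intro h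
    exact absurd (Finset.mem_univ g) h

end Generalities

theorem aeval_esymm_mem_subring {S : Type*} [CommRing S] (B : Subring S)
    (hdiv : ∀ (k : ℕ) (x : S), 0 < k → (k : S) * x ∈ B → x ∈ B)
    {σ : Type*} [Fintype σ] (u : σ → S) (h : ∀ k : ℕ, 1 ≤ k → ∑ i, u i ^ k ∈ B) (k : ℕ) :
    MvPolynomial.aeval u (MvPolynomial.esymm σ ℤ k) ∈ B := by
  induction k using Nat.strong_induction_on with
  | _ k ih =>
    rcases Nat.eq_zero_or_pos k with rfl | hk
    · rw [MvPolynomial.esymm_zero, map_one]
      exact B.one_mem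
    · apply hdiv k _ hk
      have key := congrArg (MvPolynomial.aeval u) (MvPolynomial.mul_esymm_eq_sum σ ℤ k)
      rw [map_mul, map_natCast] at key
      rw [key, map_mul, map_pow, map_neg, map_one, map_sum]
      refine B.mul_mem (B.pow_mem (B.neg_mem B.one_mem) _) (B.sum_mem fun a ha => ?_)
      rw [Finset.mem_filter, Finset.HasAntidiagonal.mem_antidiagonal] at ha
      rw [map_mul, map_mul, map_pow, map_neg, map_one]
      refine B.mul_mem (B.mul_mem (B.pow_mem (B.neg_mem B.one_mem) _) (ih a.1 ha.2)) ?_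
      have hps : MvPolynomial.aeval u (MvPolynomial.psum σ ℤ a.2) = ∑ i, u i ^ a.2 := by
        simp [MvPolynomial.psum]
      rw [hps]
      exact h a.2 (by omega)

/-- All coefficients of `∏ (X - u i)` lie in `B` if all power sums do. -/
theorem coeff_prod_X_sub_C_mem_subring {S : Type*} [CommRing S] (B : Subring S)
    (hdiv : ∀ (k : ℕ) (x : S), 0 < k → (k : S) * x ∈ B → x ∈ B)
    {σ : Type*} [Fintype σ] (u : σ → S) (h : ∀ k : ℕ, 1 ≤ k → ∑ i, u i ^ k ∈ B) (k : ℕ) :
    (∏ i, (Polynomial.X - Polynomial.C (u i))).coeff k ∈ B := by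
  rcases subsingleton_or_nontrivial S with hS | hS
  · have h0 : (∏ i, (Polynomial.X - Polynomial.C (u i))).coeff k = 0 := Subsingleton.elim _ _
    rw [h0]
    exact B.zero_mem
  have hprod : ∏ i, (Polynomial.X - Polynomial.C (u i)) =
      ((Finset.univ.val.map u).map fun t => Polynomial.X - Polynomial.C t).prod := by
    rw [Multiset.map_map]
    rfl
  rw [hprod]
  by_cases hk : k ≤ Multiset.card (Finset.univ.val.map u)
  · rw [Multiset.prod_X_sub_C_coeff _ hk,
      ← MvPolynomial.aeval_esymm_eq_multiset_esymm σ ℤ]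
    exact B.mul_mem (B.pow_mem (B.neg_mem B.one_mem) _) (aeval_esymm_mem_subring B hdiv u h _)
  · rw [Polynomial.coeff_eq_zero_of_natDegree_lt]
    · exact B.zero_mem
    · rw [Polynomial.natDegree_multiset_prod_X_sub_C_eq_card]
      exact not_le.mp hk

/-- The product of the `-u i` lies in `B` if all power sums of the `u i` do. -/
theorem prod_neg_mem_subring {S : Type*} [CommRing S] (B : Subring S)
    (hdiv : ∀ (k : ℕ) (x : S), 0 < k → (k : S) * x ∈ B → x ∈ B)
    {σ : Type*} [Fintype σ] (u : σ → S) (h : ∀ k : ℕ, 1 ≤ k → ∑ i, u i ^ k ∈ B) :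
    ∏ i, (-u i) ∈ B := by
  have h0 := coeff_prod_X_sub_C_mem_subring B hdiv u h 0
  rwa [coeff_zero_prod_X_sub_C] at h0

/-- The next symmetric function of the `-u i` lies in `B` if all power sums of the `u i` do. -/
theorem sum_prod_erase_neg_mem_subring {S : Type*} [CommRing S] (B : Subring S)
    (hdiv : ∀ (k : ℕ) (x : S), 0 < k → (k : S) * x ∈ B → x ∈ B)
    {σ : Type*} [Fintype σ] [DecidableEq σ] (u : σ → S)
    (h : ∀ k : ℕ, 1 ≤ k → ∑ i, u i ^ k ∈ B) :
    ∑ i, ∏ j ∈ Finset.univ.erase i, (-u j) ∈ B := by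
  have h1 := coeff_prod_X_sub_C_mem_subring B hdiv u h 1
  rwa [coeff_one_prod_X_sub_C] at h1

end Fermat.Agent.S28.ModEq
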