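import Fermat.Agent.S28.ModEq.PowerSums
import Fermat.Agent.S28.ModEq.NewtonSub

/-!
# S28, WP5: the polynomials `Φ`, `Ψ`, `S` over `ℚ[j]`

Working over `ℂ((t))` with the primitive root `zetaC p`, Newton's identities turn the mixed power
sums into the statement that the symmetric functions of the conjugates lie in `ℚ[j(t^p)]`.
-/

set_option autoImplicit false

noncomputable section

namespace Fermat.Agent.S28.ModEq

open ModularCurve

/-! ### The subrings `ℚ[j(t^p)]` and `ℚ[j(t^p)][T]` -/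

variable (p : ℕ) [NeZero p]

/-- Evaluation of rational polynomials at `j (t ^ p)` over `ℂ`. -/
def evQ : Polynomial ℚ →+* LaurentSeries ℂ := evalAt (algebraMap ℚ ℂ) (jbase ℂ p)

theorem evQ_injective : Function.Injective (evQ p) :=
  evalAt_injective (Nat.pos_of_ne_zero (NeZero.ne p)) (isLead_jbase (A := ℂ) p) _
    (algebraMap ℚ ℂ).injective

theorem natCast_mul_evQ_C_inv (k : ℕ) (hk : 0 < k) :
    evQ p (Polynomial.C ((k : ℚ)⁻¹)) * (k : LaurentSeries ℂ) = 1 := by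
  rw [evQ, evalAt_C, ← map_natCast (HahnSeries.C : ℂ →+* LaurentSeries ℂ) k, ← map_mul, map_inv₀,
    map_natCast, inv_mul_cancel₀ (Nat.cast_ne_zero.mpr hk.ne'), map_one]

theorem evQ_range_div (k : ℕ) (x : LaurentSeries ℂ) (hk : 0 < k)
    (h : (k : LaurentSeries ℂ) * x ∈ (evQ p).range) : x ∈ (evQ p).range := by
  obtain ⟨P, hP⟩ := h
  refine ⟨Polynomial.C ((k : ℚ)⁻¹) * P, ?_⟩
  rw [map_mul, hP, ← mul_assoc, natCast_mul_evQ_C_inv p k hk, one_mul]

theorem mapRingHom_evQ_range_div (k : ℕ) (x : Polynomial (LaurentSeries ℂ)) (hk : 0 < k)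
    (h : (k : Polynomial (LaurentSeries ℂ)) * x ∈ (Polynomial.mapRingHom (evQ p)).range) :
    x ∈ (Polynomial.mapRingHom (evQ p)).range := by
  obtain ⟨Q, hQ⟩ := h
  refine ⟨Polynomial.C (Polynomial.C ((k : ℚ)⁻¹)) * Q, ?_⟩
  rw [map_mul, hQ, Polynomial.coe_mapRingHom, Polynomial.map_C, ← mul_assoc,
    ← Polynomial.C_eq_natCast, ← Polynomial.C_mul, natCast_mul_evQ_C_inv p k hk, Polynomial.C_1,
    one_mul]

/-! ### Power sums -/

theorem sum_yg_pow_mem (hp : p.Prime) (k : ℕ) (hk : 1 ≤ k) :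
    ∑ g, yg p (zetaC p) g ^ k ∈ (evQ p).range := by
  obtain ⟨P, hP⟩ := exists_poly_sum_zg_pow_mul_yg_pow p hp 0 k (Nat.zero_le _) hk
  refine ⟨P, ?_⟩
  rw [evQ, ← hP]
  simp

/-- The linear family `v_g = z_g - y_g * T` in `ℂ((t))[T]`. -/
def vT (g : Option (Fin p)) : Polynomial (LaurentSeries ℂ) :=
  Polynomial.C (zg p (zetaC p) g) - Polynomial.C (yg p (zetaC p) g) * Polynomial.X

theorem sum_vT_pow_mem (hp : p.Prime) (k : ℕ) (hk : 1 ≤ k) :
    ∑ g, vT p g ^ k ∈ (Polynomial.mapRingHom (evQ p)).range := by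
  have hexp : ∀ g, vT p g ^ k = ∑ i ∈ Finset.range (k + 1),
      Polynomial.C (zg p (zetaC p) g ^ i * yg p (zetaC p) g ^ (k - i)) *
        ((-Polynomial.X) ^ (k - i) * (k.choose i : Polynomial (LaurentSeries ℂ))) := by
    intro g
    have : vT p g = Polynomial.C (zg p (zetaC p) g) +
        Polynomial.C (yg p (zetaC p) g) * (-Polynomial.X) := by
      unfold vT; ring
    rw [this]
    refine (add_pow (Polynomial.C (zg p (zetaC p) g))
      (Polynomial.C (yg p (zetaC p) g) * (-Polynomial.X)) k).trans ?_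
    refine Finset.sum_congr rfl fun i _ => ?_
    rw [Polynomial.C_mul, Polynomial.C_pow, Polynomial.C_pow]
    ring
  simp_rw [hexp]
  rw [Finset.sum_comm]
  refine Subring.sum_mem _ fun i hi => ?_
  rw [← Finset.sum_mul, ← map_sum]
  have hi' : i ≤ k := Nat.lt_succ_iff.mp (Finset.mem_range.mp hi)
  obtain ⟨P, hP⟩ := exists_poly_sum_zg_pow_mul_yg_pow p hp i k hi' hk
  have hX : (Polynomial.X : Polynomial (LaurentSeries ℂ)) ∈
      (Polynomial.mapRingHom (evQ p)).range := ⟨Polynomial.X, by simp⟩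
  refine Subring.mul_mem _ ⟨Polynomial.C P, ?_⟩
    (Subring.mul_mem _ (Subring.pow_mem _ (Subring.neg_mem _ hX) _) (natCast_mem _ _))
  rw [Polynomial.coe_mapRingHom, Polynomial.map_C, hP]
  rfl

/-! ### The polynomials over `ℚ[j]` -/

/-- `Ψ` over `ℚ[j]`. -/
theorem exists_Psi0 (hp : p.Prime) :
    ∃ Ψ₀ : Polynomial (Polynomial ℚ),
      Ψ₀.map (evQ p) = ∏ g, (Polynomial.X - Polynomial.C (yg p (zetaC p) g)) := by
  have hmem : ∏ g, (Polynomial.X - Polynomial.C (yg p (zetaC p) g)) ∈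
      Polynomial.lifts (evQ p) := by
    rw [Polynomial.lifts_iff_coeff_lifts]
    intro n
    exact RingHom.mem_range.mp (coeff_prod_X_sub_C_mem_subring (evQ p).range (evQ_range_div p) _
      (sum_yg_pow_mem p hp) n)
  exact (Polynomial.mem_lifts _).mp hmem

set_option maxHeartbeats 1000000 in
/-- `∏ (-v_g)` comes from `ℚ[j][T]`. -/
theorem exists_Q0 (hp : p.Prime) :
    ∃ Q : Polynomial (Polynomial ℚ), Q.map (evQ p) = ∏ g, (-vT p g) := by
  have hmem : ∏ g, (-vT p g) ∈ (Polynomial.mapRingHom (evQ p)).range := by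
    have h := prod_neg_mem_subring (Polynomial.mapRingHom (evQ p)).range
      (mapRingHom_evQ_range_div p) (vT p)
    exact h (sum_vT_pow_mem p hp)
  obtain ⟨Q, hQ⟩ := RingHom.mem_range.mp hmem
  exact ⟨Q, by rw [← hQ, Polynomial.coe_mapRingHom]⟩

set_option maxHeartbeats 1000000 in
/-- `∑_g ∏_{h ≠ g} (-v_h)` comes from `ℚ[j][T]`. -/
theorem exists_Q1 (hp : p.Prime) :
    ∃ Q : Polynomial (Polynomial ℚ),
      Q.map (evQ p) = ∑ g, ∏ h ∈ Finset.univ.erase g, (-vT p h) := by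
  have hmem : ∑ g, ∏ h ∈ Finset.univ.erase g, (-vT p h) ∈
      (Polynomial.mapRingHom (evQ p)).range := by
    have h := sum_prod_erase_neg_mem_subring (Polynomial.mapRingHom (evQ p)).range
      (mapRingHom_evQ_range_div p) (vT p)
    exact h (sum_vT_pow_mem p hp)
  obtain ⟨Q, hQ⟩ := RingHom.mem_range.mp hmem
  exact ⟨Q, by rw [← hQ, Polynomial.coe_mapRingHom]⟩

theorem neg_vT (g : Option (Fin p)) :
    -vT p g = Polynomial.C (yg p (zetaC p) g) *
      (Polynomial.X - Polynomial.C (jg p (zetaC p) g)) := by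
  unfold vT
  rw [zg_eq, Polynomial.C_mul]
  ring

/-- The order of `y_g`. -/
def ordY : Option (Fin p) → ℤ
  | none => (p : ℤ) * p - p
  | some _ => 1 - p

/-- The leading coefficient of `y_g`. -/
def lcY : Option (Fin p) → ℂ
  | none => (p : ℂ) ^ 12
  | some b => ((zetaC p : ℂˣ) : ℂ) ^ (b : ℕ)

theorem isLead_yg (g : Option (Fin p)) : IsLead (yg p (zetaC p) g) (ordY p g) (lcY p g) := by
  cases g with
  | none =>
    have h1 := (isLead_qExpand (p * p) (isLead_DA ℂ)).C_mul ((p : ℂ) ^ 12)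
    have h2 := h1.mul (isLead_qExpand p (isLead_DAinv ℂ))
    have e1 : ((p * p : ℕ) : ℤ) * 1 + (p : ℤ) * -1 = ordY p none := by
      simp only [ordY]; push_cast; ring
    have e2 : (p : ℂ) ^ 12 * 1 * 1 = lcY p none := by simp [lcY]
    rw [e1, e2] at h2
    exact h2
  | some b =>
    have h1 := (isLead_twist (zetaC p ^ (b : ℕ)) (isLead_DA ℂ)).C_mul 1
    have h2 := h1.mul (isLead_qExpand p (isLead_DAinv ℂ))
    have e1 : (1 : ℤ) + (p : ℤ) * -1 = ordY p (some b) := by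
      simp only [ordY]; ring
    have e2 : (1 : ℂ) * ((((zetaC p ^ (b : ℕ)) ^ (1 : ℤ) : ℂˣ) : ℂ) * 1) * 1 = lcY p (some b) := by
      simp [lcY]
    rw [e1, e2] at h2
    exact h2

omit [NeZero p] in
theorem sum_ordY : ∑ g, ordY p g = 0 := by
  rw [Fintype.sum_option]
  simp only [ordY, Finset.sum_const, Finset.card_univ, Fintype.card_fin, nsmul_eq_mul]
  ring

omit [NeZero p] in
theorem prod_lcY_sq (hp : p.Prime) : (∏ g, lcY p g) ^ 2 = (p : ℂ) ^ 24 := by
  have hz : (∏ b : Fin p, ((zetaC p : ℂˣ) : ℂ) ^ (b : ℕ)) ^ 2 = 1 := by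
    rw [Fin.prod_univ_eq_prod_range (fun b => ((zetaC p : ℂˣ) : ℂ) ^ b) p,
      Finset.prod_pow_eq_pow_sum, ← pow_mul, Finset.sum_range_id_mul_two,
      pow_mul ((zetaC p : ℂˣ) : ℂ) p (p - 1), zetaC_pow p hp, one_pow]
  rw [Fintype.prod_option]
  simp only [lcY]
  rw [mul_pow, hz, mul_one, ← pow_mul]

/-- The product of the `y_g` is a rational constant `κ` with `κ ^ 2 = p ^ 24`. -/
theorem exists_kappa (hp : p.Prime) :
    ∃ κ : ℚ, κ ^ 2 = (p : ℚ) ^ 24 ∧ ∏ g, yg p (zetaC p) g = HahnSeries.C (κ : ℂ) := by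
  have hsum : ∀ k : ℕ, 1 ≤ k → ∑ g, (-yg p (zetaC p) g) ^ k ∈ (evQ p).range := by
    intro k hk
    have : ∑ g, (-yg p (zetaC p) g) ^ k = (-1) ^ k * ∑ g, yg p (zetaC p) g ^ k := by
      rw [Finset.mul_sum]
      exact Finset.sum_congr rfl fun g _ => neg_pow _ _
    rw [this]
    exact Subring.mul_mem _ (Subring.pow_mem _ (Subring.neg_mem _ (Subring.one_mem _)) _)
      (sum_yg_pow_mem p hp k hk)
  have h0 := prod_neg_mem_subring (evQ p).range (evQ_range_div p) _ hsum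
  simp only [neg_neg] at h0
  obtain ⟨P, hP⟩ := RingHom.mem_range.mp h0
  have hlead : IsLead (∏ g, yg p (zetaC p) g) 0 (∏ g, lcY p g) := by
    have h := IsLead.prod Finset.univ (fun g => yg p (zetaC p) g) (ordY p) (lcY p)
      (fun g _ => isLead_yg p g)
    rwa [sum_ordY] at h
  have hdeg : P.natDegree = 0 :=
    natDegree_eq_zero_of_coeff_neg (Nat.pos_of_ne_zero (NeZero.ne p)) (isLead_jbase (A := ℂ) p)
      (algebraMap ℚ ℂ) (algebraMap ℚ ℂ).injective P (fun k hk => by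
        have : evalAt (algebraMap ℚ ℂ) (jbase ℂ p) P = ∏ g, yg p (zetaC p) g := hP
        rw [this]
        exact hlead.coeff_lt hk)
  have hPC := Polynomial.eq_C_of_natDegree_eq_zero hdeg
  have hprod : ∏ g, yg p (zetaC p) g = HahnSeries.C ((P.coeff 0 : ℚ) : ℂ) := by
    rw [← hP, hPC, evQ, evalAt_C]
    simp
  refine ⟨P.coeff 0, ?_, hprod⟩
  have hc := hlead.coeff_eq
  rw [hprod, HahnSeries.C_apply, HahnSeries.coeff_single_same] at hc
  have h2 := prod_lcY_sq p hp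
  rw [← hc] at h2
  exact_mod_cast h2

/-- `Φ` over `ℚ[j]`: the modular equation with its root list. -/
theorem exists_Phi0 (hp : p.Prime) :
    ∃ Φ₀ : Polynomial (Polynomial ℚ),
      Φ₀.map (evQ p) = ∏ g, (Polynomial.X - Polynomial.C (jg p (zetaC p) g)) := by
  obtain ⟨κ, hκ2, hκ⟩ := exists_kappa p hp
  have hκ0 : κ ≠ 0 := by
    intro h0
    rw [h0] at hκ2
    have hp0 : (p : ℚ) ≠ 0 := Nat.cast_ne_zero.mpr hp.ne_zero
    exact pow_ne_zero 24 hp0 (by rw [← hκ2]; ring)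
  obtain ⟨Q, hQ⟩ := exists_Q0 p hp
  simp_rw [neg_vT] at hQ
  rw [Finset.prod_mul_distrib, ← map_prod, hκ] at hQ
  refine ⟨Polynomial.C (Polynomial.C κ⁻¹) * Q, ?_⟩
  have hinv : (HahnSeries.C ((algebraMap ℚ ℂ) κ⁻¹) : LaurentSeries ℂ) * HahnSeries.C (κ : ℂ) =
      1 := by
    rw [← map_mul, eq_ratCast, Rat.cast_inv, inv_mul_cancel₀ (by exact_mod_cast hκ0), map_one]
  rw [Polynomial.map_mul, Polynomial.map_C, hQ, ← mul_assoc, ← Polynomial.C_mul, evQ, evalAt_C,
    hinv, Polynomial.C_1, one_mul]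

/-- The mixed polynomial `S` over `ℚ[j]`. -/
theorem exists_S0 (hp : p.Prime) :
    ∃ S₀ : Polynomial (Polynomial ℚ),
      S₀.map (evQ p) = ∑ g, ∏ h ∈ Finset.univ.erase g,
        (Polynomial.C (yg p (zetaC p) h) *
          (Polynomial.X - Polynomial.C (jg p (zetaC p) h))) := by
  obtain ⟨Q, hQ⟩ := exists_Q1 p hp
  simp_rw [neg_vT] at hQ
  exact ⟨Q, hQ⟩

end Fermat.Agent.S28.ModEq
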