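import Fermat.Agent.S28.ModEq.Family

/-!
# S28, WP5: integrality of the polynomials `Φ`, `Ψ`, `S`

The conjugates are defined over the ring of algebraic integers `integralClosure ℤ ℂ`; hence the
coefficients of the symmetric expressions have algebraic-integer coefficients, and the rational
polynomials in `j` expressing them have integer coefficients.
-/

set_option autoImplicit false

noncomputable section

namespace Fermat.Agent.S28.ModEq

open ModularCurve

/-! ### Naturality of the conjugates -/

section Naturality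

variable {A B : Type*} [CommRing A] [CommRing B] (φ : A →+* B) (p : ℕ) [NeZero p] (ζ : Aˣ)

theorem coeffMap_C (r : A) :
    coeffMap φ (HahnSeries.C r : LaurentSeries A) = HahnSeries.C (φ r) := by
  rw [HahnSeries.C_apply, HahnSeries.C_apply, coeffMap_single]

theorem coeffMap_conjHom (g : Option (Fin p)) (f : LaurentSeries A) :
    coeffMap φ (conjHom p ζ g f) = conjHom p (Units.map (φ : A →* B) ζ) g (coeffMap φ f) := by
  cases g with
  | none => exact coeffMap_qExpand φ (p * p) f
  | some b =>
    show coeffMap φ (twist (ζ ^ (b : ℕ)) f) = twist (Units.map (φ : A →* B) ζ ^ (b : ℕ)) _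
    rw [coeffMap_twist, map_pow]

omit [NeZero p] in
theorem map_wt (g : Option (Fin p)) : φ (wt A p g) = wt B p g := by
  cases g with
  | none => simp [wt]
  | some b => simp [wt]

theorem coeffMap_jg (g : Option (Fin p)) :
    coeffMap φ (jg p ζ g) = jg p (Units.map (φ : A →* B) ζ) g := by
  unfold jg
  rw [coeffMap_conjHom, coeffMap_jqModC]

theorem coeffMap_Dg (g : Option (Fin p)) :
    coeffMap φ (Dg p ζ g) = Dg p (Units.map (φ : A →* B) ζ) g := by
  unfold Dg
  rw [map_mul, coeffMap_C, map_wt, coeffMap_conjHom, coeffMap_DA]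

theorem coeffMap_DbaseInv : coeffMap φ (DbaseInv A p) = DbaseInv B p := by
  unfold DbaseInv
  rw [coeffMap_qExpand, coeffMap_DAinv]

theorem coeffMap_jbase : coeffMap φ (jbase A p) = jbase B p := by
  unfold jbase
  rw [coeffMap_qExpand, coeffMap_jqModC]

theorem coeffMap_yg (g : Option (Fin p)) :
    coeffMap φ (yg p ζ g) = yg p (Units.map (φ : A →* B) ζ) g := by
  unfold yg
  rw [map_mul, coeffMap_Dg, coeffMap_DbaseInv]

theorem coeffMap_injective (hφ : Function.Injective φ) : Function.Injective (coeffMap φ) := by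
  intro x y h
  ext k
  apply hφ
  have := congrArg (fun s : LaurentSeries B => s.coeff k) h
  simpa using this

theorem coeffMap_evalAt {R : Type*} [CommRing R] (ψ : R →+* A) (J : LaurentSeries A)
    (P : Polynomial R) :
    coeffMap φ (evalAt ψ J P) = evalAt (φ.comp ψ) (coeffMap φ J) P := by
  have h : (coeffMap φ).comp (evalAt ψ J) = evalAt (φ.comp ψ) (coeffMap φ J) := by
    refine Polynomial.ringHom_ext (fun a => ?_) ?_
    · simp
    · simp
  exact congrArg (fun f : Polynomial R →+* LaurentSeries B => f P) h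

theorem qExpand_evalAt {R : Type*} [CommRing R] (n : ℕ) [NeZero n] (ψ : R →+* A)
    (J : LaurentSeries A) (P : Polynomial R) :
    qExpand A n (evalAt ψ J P) = evalAt ψ (qExpand A n J) P := by
  have h : (qExpand A n).comp (evalAt ψ J) = evalAt ψ (qExpand A n J) := by
    refine Polynomial.ringHom_ext (fun a => ?_) ?_
    · simp
    · simp
  exact congrArg (fun f : Polynomial R →+* LaurentSeries A => f P) h

end Naturality

/-! ### The algebraic integers -/

/-- The ring of algebraic integers in `ℂ`. -/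
abbrev Zbar : Type := ↥(integralClosure ℤ ℂ)

/-- The inclusion of the algebraic integers in `ℂ`. -/
def ιZ : Zbar →+* ℂ := (integralClosure ℤ ℂ).val.toRingHom

theorem ιZ_injective : Function.Injective ιZ := Subtype.val_injective

theorem isIntegral_zetaC (p : ℕ) (hp : p.Prime) : IsIntegral ℤ ((zetaC p : ℂˣ) : ℂ) :=
  (Complex.isPrimitiveRoot_exp p hp.ne_zero).isIntegral hp.pos

/-- The primitive root as a unit of the ring of algebraic integers. -/
def zetaZ (p : ℕ) (hp : p.Prime) : Zbarˣ where
  val := ⟨((zetaC p : ℂˣ) : ℂ), isIntegral_zetaC p hp⟩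
  inv := ⟨((zetaC p : ℂˣ) : ℂ) ^ (p - 1), (isIntegral_zetaC p hp).pow _⟩
  val_inv := by
    apply Subtype.ext
    show ((zetaC p : ℂˣ) : ℂ) * ((zetaC p : ℂˣ) : ℂ) ^ (p - 1) = 1
    rw [← pow_succ', Nat.sub_add_cancel hp.pos, zetaC_pow p hp]
  inv_val := by
    apply Subtype.ext
    show ((zetaC p : ℂˣ) : ℂ) ^ (p - 1) * ((zetaC p : ℂˣ) : ℂ) = 1
    rw [← pow_succ, Nat.sub_add_cancel hp.pos, zetaC_pow p hp]

theorem map_zetaZ (p : ℕ) (hp : p.Prime) :
    Units.map (ιZ : Zbar →* ℂ) (zetaZ p hp) = zetaC p :=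
  Units.ext rfl

/-- A rational number that is an algebraic integer is an integer. -/
theorem rat_mem_range_intCast (r : ℚ) (h : (algebraMap ℚ ℂ) r ∈ Set.range ιZ) :
    r ∈ Set.range (Int.castRingHom ℚ) := by
  obtain ⟨z, hz⟩ := h
  have h1 : IsIntegral ℤ ((algebraMap ℚ ℂ) r) := by
    rw [← hz]
    exact z.2
  have h2 : IsIntegral ℤ r := (isIntegral_algebraMap_iff (algebraMap ℚ ℂ).injective).mp h1
  obtain ⟨m, hm⟩ := IsIntegrallyClosed.isIntegral_iff.mp h2
  exact ⟨m, by rw [← hm]; rfl⟩

/-- Descent to integer coefficients. -/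
theorem exists_int_lift (p : ℕ) [NeZero p] (F₀ : Polynomial (Polynomial ℚ))
    (G : Polynomial (LaurentSeries Zbar)) (h : F₀.map (evQ p) = G.map (coeffMap ιZ)) :
    ∃ F : Polynomial (Polynomial ℤ),
      F.map (Polynomial.mapRingHom (Int.castRingHom ℚ)) = F₀ := by
  have hmem : F₀ ∈ Polynomial.lifts (Polynomial.mapRingHom (Int.castRingHom ℚ)) := by
    rw [Polynomial.lifts_iff_coeff_lifts]
    intro n
    have hs : evalAt (algebraMap ℚ ℂ) (coeffMap ιZ (jbase Zbar p)) (F₀.coeff n) =
        coeffMap ιZ (G.coeff n) := by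
      have h1 := congrArg (fun P : Polynomial (LaurentSeries ℂ) => P.coeff n) h
      simp only [Polynomial.coeff_map] at h1
      rw [coeffMap_jbase]
      exact h1
    obtain ⟨P₀, hP₀⟩ := exists_map_eq_of_evalAt_eq_coeffMap ιZ (algebraMap ℚ ℂ)
      (Int.castRingHom Zbar) (Int.castRingHom ℚ) (RingHom.ext_int _ _) rat_mem_range_intCast
      (Nat.pos_of_ne_zero (NeZero.ne p)) (isLead_jbase (A := Zbar) p) (F₀.coeff n) (G.coeff n) hs
    exact ⟨P₀, by rw [← hP₀, Polynomial.coe_mapRingHom]⟩
  exact (Polynomial.mem_lifts _).mp hmem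

end Fermat.Agent.S28.ModEq
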