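import Fermat.Agent.S28.ModEq.Twist

/-!
# S28, WP5: leading terms of Laurent series and polynomials in a series with a pole

`IsLead f n c` says `f = c * t ^ n * (1 + O(t))`.  If `J` has a simple leading term `t ^ (-d)`
(`d > 0`), a polynomial in `J` is determined by its principal part; this gives injectivity of
evaluation at `J`, "no pole implies constant" and descent of coefficients to a subring.
-/

set_option autoImplicit false

noncomputable section

namespace Fermat.Agent.S28.ModEq

open HahnSeries ModularCurve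

variable {A : Type*} [CommRing A]

/-- A Laurent series without negative-degree terms comes from a power series. -/
theorem exists_ofPowerSeries_of_coeff_neg (u : LaurentSeries A)
    (hu : ∀ k : ℤ, k < 0 → u.coeff k = 0) :
    ∃ g : PowerSeries A, u = HahnSeries.ofPowerSeries ℤ A g ∧
      PowerSeries.constantCoeff g = u.coeff 0 := by
  refine ⟨PowerSeries.mk fun n => u.coeff n, ?_, ?_⟩
  · ext k
    rcases le_or_gt 0 k with hk | hk
    · lift k to ℕ using hk
      rw [HahnSeries.ofPowerSeries_apply_coeff, PowerSeries.coeff_mk]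
    · rw [hu k hk, ofPowerSeries_coeff_of_neg _ hk]
  · rw [← PowerSeries.coeff_zero_eq_constantCoeff_apply, PowerSeries.coeff_mk]
    rfl

/-- `f = c * t ^ n * (1 + O(t))`. -/
def IsLead (f : LaurentSeries A) (n : ℤ) (c : A) : Prop :=
  ∃ g : PowerSeries A, PowerSeries.constantCoeff g = 1 ∧
    f = HahnSeries.single n c * HahnSeries.ofPowerSeries ℤ A g

theorem IsLead.coeff_eq {f : LaurentSeries A} {n : ℤ} {c : A} (h : IsLead f n c) :
    f.coeff n = c := by
  obtain ⟨g, hg, rfl⟩ := h
  rw [HahnSeries.coeff_single_mul, sub_self, show (0 : ℤ) = ((0 : ℕ) : ℤ) from rfl,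
    HahnSeries.ofPowerSeries_apply_coeff, PowerSeries.coeff_zero_eq_constantCoeff_apply, hg,
    mul_one]

theorem IsLead.coeff_lt {f : LaurentSeries A} {n : ℤ} {c : A} (h : IsLead f n c) {k : ℤ}
    (hk : k < n) : f.coeff k = 0 := by
  obtain ⟨g, hg, rfl⟩ := h
  rw [HahnSeries.coeff_single_mul, ofPowerSeries_coeff_of_neg _ (by omega), mul_zero]

theorem IsLead.one : IsLead (1 : LaurentSeries A) 0 1 :=
  ⟨1, by simp, by simp⟩

theorem IsLead.mul {f g : LaurentSeries A} {n m : ℤ} {c d : A} (hf : IsLead f n c)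
    (hg : IsLead g m d) : IsLead (f * g) (n + m) (c * d) := by
  obtain ⟨u, hu, rfl⟩ := hf
  obtain ⟨v, hv, rfl⟩ := hg
  refine ⟨u * v, by rw [map_mul, hu, hv, mul_one], ?_⟩
  rw [RingHom.map_mul, ← HahnSeries.single_mul_single]
  ring

theorem IsLead.pow {f : LaurentSeries A} {n : ℤ} {c : A} (hf : IsLead f n c) (k : ℕ) :
    IsLead (f ^ k) (k * n) (c ^ k) := by
  induction k with
  | zero => simpa using (IsLead.one : IsLead (1 : LaurentSeries A) 0 1)
  | succ k ih =>
    have h := ih.mul hf
    rw [pow_succ, pow_succ]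
    have e : ((k + 1 : ℕ) : ℤ) * n = (k : ℤ) * n + n := by push_cast; ring
    rw [e]
    exact h

theorem IsLead.prod {ι : Type*} (s : Finset ι) (f : ι → LaurentSeries A) (n : ι → ℤ)
    (c : ι → A) (h : ∀ i ∈ s, IsLead (f i) (n i) (c i)) :
    IsLead (∏ i ∈ s, f i) (∑ i ∈ s, n i) (∏ i ∈ s, c i) := by
  classical
  induction s using Finset.induction_on with
  | empty => simpa using (IsLead.one : IsLead (1 : LaurentSeries A) 0 1)
  | insert a s ha ih =>
    rw [Finset.prod_insert ha, Finset.sum_insert ha, Finset.prod_insert ha]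
    exact (h a (Finset.mem_insert_self a s)).mul
      (ih fun i hi => h i (Finset.mem_insert_of_mem hi))

theorem IsLead.C_mul {f : LaurentSeries A} {n : ℤ} {c : A} (hf : IsLead f n c) (r : A) :
    IsLead (HahnSeries.C r * f) n (r * c) := by
  obtain ⟨u, hu, rfl⟩ := hf
  refine ⟨u, hu, ?_⟩
  rw [HahnSeries.C_apply, ← mul_assoc, HahnSeries.single_mul_single, zero_add]

theorem isLead_coeffMap {B : Type*} [CommRing B] (φ : A →+* B) {f : LaurentSeries A} {n : ℤ}
    {c : A} (hf : IsLead f n c) : IsLead (coeffMap φ f) n (φ c) := by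
  obtain ⟨u, hu, rfl⟩ := hf
  refine ⟨u.map φ, ?_, ?_⟩
  · rw [← PowerSeries.coeff_zero_eq_constantCoeff_apply, PowerSeries.coeff_map,
      PowerSeries.coeff_zero_eq_constantCoeff_apply, hu, map_one]
  · rw [map_mul, coeffMap_single, coeffMap_ofPowerSeries]

theorem isLead_twist (c' : Aˣ) {f : LaurentSeries A} {n : ℤ} {c : A} (hf : IsLead f n c) :
    IsLead (twist c' f) n (((c' ^ n : Aˣ) : A) * c) := by
  obtain ⟨u, hu, rfl⟩ := hf
  refine ⟨PowerSeries.rescale (c' : A) u, ?_, ?_⟩
  · rw [← PowerSeries.coeff_zero_eq_constantCoeff_apply, PowerSeries.coeff_rescale, pow_zero,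
      one_mul, PowerSeries.coeff_zero_eq_constantCoeff_apply, hu]
  · rw [map_mul, twist_single, twist_ofPowerSeries]

theorem isLead_qExpand (m : ℕ) [NeZero m] {f : LaurentSeries A} {n : ℤ} {c : A}
    (hf : IsLead f n c) : IsLead (qExpand A m f) (m * n) c := by
  obtain ⟨u, hu, rfl⟩ := hf
  have hm : (0 : ℤ) < m := by exact_mod_cast Nat.pos_of_ne_zero (NeZero.ne m)
  obtain ⟨v, hv, hv0⟩ := exists_ofPowerSeries_of_coeff_neg
    (qExpand A m (HahnSeries.ofPowerSeries ℤ A u)) (by
      intro k hk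
      by_cases hdvd : (m : ℤ) ∣ k
      · obtain ⟨k', rfl⟩ := hdvd
        rw [qExpand_coeff_mul]
        refine ofPowerSeries_coeff_of_neg _ ?_
        by_contra hk'
        have := mul_nonneg hm.le (not_lt.mp hk')
        omega
      · exact qExpand_coeff_of_not_dvd m _ hdvd)
  refine ⟨v, ?_, ?_⟩
  · rw [hv0]
    have h0 : (qExpand A m (HahnSeries.ofPowerSeries ℤ A u)).coeff ((m : ℤ) * 0) = _ :=
      qExpand_coeff_mul m _ 0
    rw [mul_zero] at h0
    rw [h0, show (0 : ℤ) = ((0 : ℕ) : ℤ) from rfl, HahnSeries.ofPowerSeries_apply_coeff,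
      PowerSeries.coeff_zero_eq_constantCoeff_apply, hu]
  · rw [map_mul, qExpand_single, hv]

/-! ### Polynomials in a series with a pole -/

section Eval

variable {R : Type*} [CommRing R]

/-- Evaluation of a polynomial with coefficients in `R` at a Laurent series over `A`. -/
def evalAt (φ : R →+* A) (J : LaurentSeries A) : Polynomial R →+* LaurentSeries A :=
  Polynomial.eval₂RingHom ((HahnSeries.C : A →+* LaurentSeries A).comp φ) J

theorem evalAt_apply (φ : R →+* A) (J : LaurentSeries A) (P : Polynomial R) :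
    evalAt φ J P = ∑ i ∈ Finset.range (P.natDegree + 1), HahnSeries.C (φ (P.coeff i)) * J ^ i := by
  rw [evalAt, Polynomial.coe_eval₂RingHom, Polynomial.eval₂_eq_sum_range]
  rfl

@[simp]
theorem evalAt_X (φ : R →+* A) (J : LaurentSeries A) : evalAt φ J Polynomial.X = J := by
  simp [evalAt]

@[simp]
theorem evalAt_C (φ : R →+* A) (J : LaurentSeries A) (r : R) :
    evalAt φ J (Polynomial.C r) = HahnSeries.C (φ r) := by
  simp [evalAt]

theorem coeff_C_mul (r : A) (f : LaurentSeries A) (k : ℤ) :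
    (HahnSeries.C r * f).coeff k = r * f.coeff k := by
  rw [HahnSeries.C_apply, HahnSeries.coeff_single_zero_mul]

theorem evalAt_coeff (φ : R →+* A) (J : LaurentSeries A) (P : Polynomial R) (k : ℤ) :
    (evalAt φ J P).coeff k =
      ∑ i ∈ Finset.range (P.natDegree + 1), φ (P.coeff i) * (J ^ i).coeff k := by
  rw [evalAt_apply, HahnSeries.coeff_sum]
  exact Finset.sum_congr rfl fun i _ => coeff_C_mul _ _ _

theorem evalAt_coeff_of_lt {d : ℕ} {J : LaurentSeries A} (hJ : IsLead J (-(d : ℤ)) 1)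
    (φ : R →+* A) (P : Polynomial R) {k : ℤ} (hk : k < -((d : ℤ) * P.natDegree)) :
    (evalAt φ J P).coeff k = 0 := by
  rw [evalAt_coeff]
  refine Finset.sum_eq_zero fun i hi => ?_
  rw [(hJ.pow i).coeff_lt, mul_zero]
  have hi' : (i : ℤ) ≤ P.natDegree := by exact_mod_cast Nat.lt_succ_iff.mp (Finset.mem_range.mp hi)
  have hd : (0 : ℤ) ≤ d := Int.natCast_nonneg d
  nlinarith

theorem evalAt_coeff_natDegree {d : ℕ} (hd : 0 < d) {J : LaurentSeries A}
    (hJ : IsLead J (-(d : ℤ)) 1) (φ : R →+* A) (P : Polynomial R) :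
    (evalAt φ J P).coeff (-((d : ℤ) * P.natDegree)) = φ P.leadingCoeff := by
  rw [evalAt_coeff, Finset.sum_eq_single P.natDegree]
  · have h := (hJ.pow P.natDegree).coeff_eq
    rw [show (P.natDegree : ℤ) * -(d : ℤ) = -((d : ℤ) * P.natDegree) by ring] at h
    rw [h, one_pow, mul_one, Polynomial.coeff_natDegree]
  · intro i hi hne
    rw [(hJ.pow i).coeff_lt, mul_zero]
    have hi' : i < P.natDegree :=
      lt_of_le_of_ne (Nat.lt_succ_iff.mp (Finset.mem_range.mp hi)) hne
    have hi'' : (i : ℤ) + 1 ≤ P.natDegree := by exact_mod_cast hi'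
    have hd' : (1 : ℤ) ≤ d := by exact_mod_cast hd
    nlinarith
  · intro h
    exact absurd (Finset.mem_range.mpr (Nat.lt_succ_self _)) h

/-- Evaluation at a series with a pole is injective. -/
theorem evalAt_injective {d : ℕ} (hd : 0 < d) {J : LaurentSeries A}
    (hJ : IsLead J (-(d : ℤ)) 1) (φ : R →+* A) (hφ : Function.Injective φ) :
    Function.Injective (evalAt φ J) := by
  rw [injective_iff_map_eq_zero]
  intro P hP
  by_contra hne
  have h := evalAt_coeff_natDegree hd hJ φ P
  rw [hP, HahnSeries.coeff_zero] at h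
  exact Polynomial.leadingCoeff_ne_zero.mpr hne (hφ (by rw [← h, map_zero]))

/-- A polynomial in a series with a pole that has no pole is constant. -/
theorem natDegree_eq_zero_of_coeff_neg {d : ℕ} (hd : 0 < d) {J : LaurentSeries A}
    (hJ : IsLead J (-(d : ℤ)) 1) (φ : R →+* A) (hφ : Function.Injective φ) (P : Polynomial R)
    (h : ∀ k : ℤ, k < 0 → (evalAt φ J P).coeff k = 0) : P.natDegree = 0 := by
  by_contra hne
  have hpos : 0 < P.natDegree := Nat.pos_of_ne_zero hne
  have hP0 : P ≠ 0 := fun h0 => by simp [h0] at hne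
  have h1 := evalAt_coeff_natDegree hd hJ φ P
  have hneg : -((d : ℤ) * P.natDegree) < 0 := by
    have h1' : (1 : ℤ) ≤ d := by exact_mod_cast hd
    have h2' : (1 : ℤ) ≤ P.natDegree := by exact_mod_cast hpos
    nlinarith
  rw [h _ hneg] at h1
  exact Polynomial.leadingCoeff_ne_zero.mpr hP0 (hφ (by rw [← h1, map_zero]))

/-- Descent of coefficients: if `P(J)` has coefficients in (the image of) a subring `A₀` and so
does `J`, then the coefficients of `P` lie in the corresponding subring `R₀` of `R`. -/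
theorem exists_map_eq_of_evalAt_eq_coeffMap {A₀ R₀ : Type*} [CommRing A₀] [CommRing R₀]
    (ι : A₀ →+* A) (φ : R →+* A) (φ₀ : R₀ →+* A₀) (ψ : R₀ →+* R)
    (hcomm : φ.comp ψ = ι.comp φ₀)
    (hpull : ∀ r : R, φ r ∈ Set.range ι → r ∈ Set.range ψ)
    {d : ℕ} (hd : 0 < d) {J₀ : LaurentSeries A₀} (hJ₀ : IsLead J₀ (-(d : ℤ)) 1)
    (P : Polynomial R) (s : LaurentSeries A₀)
    (hs : evalAt φ (coeffMap ι J₀) P = coeffMap ι s) :
    ∃ P₀ : Polynomial R₀, P₀.map ψ = P := by
  induction hn : P.natDegree using Nat.strong_induction_on generalizing P s with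
  | _ n ih =>
    have hJ : IsLead (coeffMap ι J₀) (-(d : ℤ)) 1 := by
      have := isLead_coeffMap ι hJ₀
      rwa [map_one] at this
    -- the leading coefficient lies in `R₀`
    have hlead := evalAt_coeff_natDegree hd hJ φ P
    rw [hs, coeffMap_coeff] at hlead
    obtain ⟨a₀, ha₀⟩ := hpull P.leadingCoeff ⟨_, hlead⟩
    have hφa : φ P.leadingCoeff = ι (φ₀ a₀) := by
      rw [← ha₀]
      exact congrArg (fun f : R₀ →+* A => f a₀) hcomm
    -- remove the leading term
    have hsplit := Polynomial.eraseLead_add_C_mul_X_pow P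
    have hs' : evalAt φ (coeffMap ι J₀) P.eraseLead =
        coeffMap ι (s - HahnSeries.C (φ₀ a₀) * J₀ ^ P.natDegree) := by
      have e1 : evalAt φ (coeffMap ι J₀) P.eraseLead =
          evalAt φ (coeffMap ι J₀) P
            - evalAt φ (coeffMap ι J₀) (Polynomial.C P.leadingCoeff * Polynomial.X ^ P.natDegree) := by
        rw [← map_sub]
        congr 1
        rw [eq_sub_iff_add_eq]
        exact hsplit
      rw [e1, hs, map_mul, map_pow, evalAt_C, evalAt_X, hφa, map_sub, map_mul, map_pow]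
      congr 2
      rw [HahnSeries.C_apply, HahnSeries.C_apply, coeffMap_single]
    rcases Polynomial.eraseLead_natDegree_lt_or_eraseLead_eq_zero P with hlt | hzero
    · obtain ⟨Q₀, hQ₀⟩ := ih _ (hn ▸ hlt) P.eraseLead _ hs' rfl
      refine ⟨Q₀ + Polynomial.C a₀ * Polynomial.X ^ P.natDegree, ?_⟩
      rw [Polynomial.map_add, Polynomial.map_mul, Polynomial.map_pow, Polynomial.map_C,
        Polynomial.map_X, hQ₀, ha₀]
      exact hsplit
    · refine ⟨Polynomial.C a₀ * Polynomial.X ^ P.natDegree, ?_⟩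
      rw [Polynomial.map_mul, Polynomial.map_pow, Polynomial.map_C, Polynomial.map_X, ha₀]
      rw [hzero, zero_add] at hsplit
      exact hsplit

end Eval

end Fermat.Agent.S28.ModEq
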