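import Fermat.Agent.S28.ModEq.Integral

/-!
# S28, WP5: the modular equation of prime level — the integral, `ζ`-free export

`exists_modEqData p hp : Nonempty (ModEqData p)`.
-/

set_option autoImplicit false

noncomputable section

namespace Fermat.Agent.S28.ModEq

open ModularCurve

theorem IsLead.sub_of_lt {A : Type*} [CommRing A] {f g : LaurentSeries A} {n m : ℤ} {d : A}
    (hf : IsLead f n 1) (hg : IsLead g m d) (h : n < m) : IsLead (f - g) n 1 := by
  obtain ⟨u, hu, rfl⟩ := hf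
  obtain ⟨v, hv, rfl⟩ := hg
  obtain ⟨k, hk⟩ : ∃ k : ℕ, m = n + ((k + 1 : ℕ) : ℤ) := ⟨(m - n - 1).toNat, by omega⟩
  refine ⟨u - PowerSeries.X ^ (k + 1) * (PowerSeries.C d * v), ?_, ?_⟩
  · rw [map_sub, hu, map_mul, map_pow, PowerSeries.constantCoeff_X, zero_pow (Nat.succ_ne_zero k),
      zero_mul, sub_zero]
  · rw [RingHom.map_sub, RingHom.map_mul, RingHom.map_mul, HahnSeries.ofPowerSeries_X_pow,
      HahnSeries.ofPowerSeries_C, mul_sub, hk, HahnSeries.C_apply, ← mul_assoc, ← mul_assoc,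
      HahnSeries.single_mul_single, HahnSeries.single_mul_single]
    simp

variable (p : ℕ) [NeZero p]

/-- Evaluation of integer polynomials at `j (t ^ p)` over `ℂ`. -/
def evZ : Polynomial ℤ →+* LaurentSeries ℂ := evalAt (Int.castRingHom ℂ) (jbase ℂ p)

theorem evZ_injective : Function.Injective (evZ p) :=
  evalAt_injective (Nat.pos_of_ne_zero (NeZero.ne p)) (isLead_jbase (A := ℂ) p) _
    Int.cast_injective

theorem evQ_comp_mapRingHom :
    (evQ p).comp (Polynomial.mapRingHom (Int.castRingHom ℚ)) = evZ p := by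
  refine Polynomial.ringHom_ext (fun a => ?_) ?_
  · simp [evQ, evZ]
  · simp [evQ, evZ]

theorem map_map_evQ (F : Polynomial (Polynomial ℤ)) :
    (F.map (Polynomial.mapRingHom (Int.castRingHom ℚ))).map (evQ p) = F.map (evZ p) := by
  rw [Polynomial.map_map, evQ_comp_mapRingHom]

/-- Change of coefficients `ℤ → ℂ` on Laurent series. -/
def ιC : LaurentSeries ℤ →+* LaurentSeries ℂ := coeffMap (Int.castRingHom ℂ)

theorem ιC_injective : Function.Injective ιC := coeffMap_injective _ Int.cast_injective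

/-- Transfer of a double evaluation over `ℤ` to `ℂ`. -/
theorem ιC_eval₂ (F : Polynomial (Polynomial ℤ)) (J x : LaurentSeries ℤ) :
    ιC (F.eval₂ (evalAt (RingHom.id ℤ) J) x) =
      (F.map (evalAt (Int.castRingHom ℂ) (ιC J))).eval (ιC x) := by
  have h : ιC.comp (evalAt (RingHom.id ℤ) J) = evalAt (Int.castRingHom ℂ) (ιC J) :=
    RingHom.ext fun P => coeffMap_evalAt (Int.castRingHom ℂ) (RingHom.id ℤ) J P
  rw [Polynomial.hom_eval₂, h, Polynomial.eval₂_eq_eval_map]

/-- Transfer of an evaluation along `t ↦ t ^ n`. -/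
theorem qExpand_eval_map (n : ℕ) [NeZero n] (F : Polynomial (Polynomial ℤ))
    (J x : LaurentSeries ℂ) :
    qExpand ℂ n ((F.map (evalAt (Int.castRingHom ℂ) J)).eval x) =
      (F.map (evalAt (Int.castRingHom ℂ) (qExpand ℂ n J))).eval (qExpand ℂ n x) := by
  have h : (qExpand ℂ n).comp (evalAt (Int.castRingHom ℂ) J) =
      evalAt (Int.castRingHom ℂ) (qExpand ℂ n J) :=
    RingHom.ext fun P => qExpand_evalAt n (Int.castRingHom ℂ) J P
  rw [← Polynomial.eval₂_eq_eval_map, Polynomial.hom_eval₂, h, Polynomial.eval₂_eq_eval_map]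

/-- The transfer map `Θ = (t ↦ t ^ p) ∘ (ℤ → ℂ)` on double evaluations at `j`. -/
theorem theta_eval₂ (F : Polynomial (Polynomial ℤ)) (x : LaurentSeries ℤ) :
    qExpand ℂ p (ιC (F.eval₂ (evalAt (RingHom.id ℤ) (jqModC ℤ)) x)) =
      (F.map (evZ p)).eval (qExpand ℂ p (ιC x)) := by
  rw [ιC_eval₂, qExpand_eval_map]
  have : qExpand ℂ p (ιC (jqModC ℤ)) = jbase ℂ p := by
    unfold ιC jbase
    rw [coeffMap_jqModC]
  rw [this]
  rfl

theorem theta_injective : Function.Injective fun x : LaurentSeries ℤ => qExpand ℂ p (ιC x) :=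
  (qExpand_injective p).comp ιC_injective

theorem theta_jqNModC : qExpand ℂ p (ιC (jqNModC ℤ p)) = jg p (zetaC p) none := by
  unfold ιC
  rw [coeffMap_jqNModC, jqNModC, qExpand_qExpand]
  rfl

theorem theta_yInf : qExpand ℂ p (ιC (yInf ℤ p)) = yg p (zetaC p) none := by
  unfold ιC
  rw [coeffMap_yInf]
  unfold yInf yg Dg DbaseInv
  rw [map_mul, map_mul, qExpand_C, qExpand_qExpand]
  rfl

theorem ιC_jqNModC : ιC (jqNModC ℤ p) = jbase ℂ p := by
  unfold ιC
  rw [coeffMap_jqNModC]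
  rfl

theorem ιC_jqModC (hp : p.Prime) : ιC (jqModC ℤ) = jg p (zetaC p) (some ⟨0, hp.pos⟩) := by
  unfold ιC jg
  rw [coeffMap_jqModC]
  show jqModC ℂ = twist (zetaC p ^ (0 : ℕ)) (jqModC ℂ)
  rw [pow_zero, twist_one]

theorem isLead_jg_none : IsLead (jg p (zetaC p) none) (-((p : ℤ) * p)) 1 := by
  have h := isLead_qExpand (p * p) (isLead_jqModC ℂ)
  have e : ((p * p : ℕ) : ℤ) * -1 = -((p : ℤ) * p) := by push_cast; ring
  rw [e] at h
  exact h

theorem isLead_jg_none_sub (hp : p.Prime) (b : Fin p) :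
    IsLead (jg p (zetaC p) none - jg p (zetaC p) (some b)) (-((p : ℤ) * p)) 1 := by
  have h2 : IsLead (jg p (zetaC p) (some b)) (-1) _ :=
    isLead_twist (zetaC p ^ (b : ℕ)) (isLead_jqModC ℂ)
  refine (isLead_jg_none p).sub_of_lt h2 ?_
  have hp2 : (2 : ℤ) ≤ p := by exact_mod_cast hp.two_le
  nlinarith

/-- **WP5 of S28**: the integral, `ζ`-free data of the modular equation of prime level `p`. -/
theorem exists_modEqData (hp : p.Prime) : Nonempty (ModEqData p) := by
  classical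
  obtain ⟨κ, hκ2, hκ⟩ := exists_kappa p hp
  obtain ⟨Φ₀, hΦ₀⟩ := exists_Phi0 p hp
  obtain ⟨Ψ₀, hΨ₀⟩ := exists_Psi0 p hp
  obtain ⟨S₀, hS₀⟩ := exists_S0 p hp
  -- integral lifts
  obtain ⟨Φ, hΦ⟩ := exists_int_lift p Φ₀
    (∏ g, (Polynomial.X - Polynomial.C (jg p (zetaZ p hp) g))) (by
      rw [hΦ₀, Polynomial.map_prod]
      refine Finset.prod_congr rfl fun g _ => ?_
      rw [Polynomial.map_sub, Polynomial.map_X, Polynomial.map_C, coeffMap_jg, map_zetaZ])
  obtain ⟨Ψ, hΨ⟩ := exists_int_lift p Ψ₀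
    (∏ g, (Polynomial.X - Polynomial.C (yg p (zetaZ p hp) g))) (by
      rw [hΨ₀, Polynomial.map_prod]
      refine Finset.prod_congr rfl fun g _ => ?_
      rw [Polynomial.map_sub, Polynomial.map_X, Polynomial.map_C, coeffMap_yg, map_zetaZ])
  obtain ⟨S, hS⟩ := exists_int_lift p S₀
    (∑ g, ∏ h ∈ Finset.univ.erase g, (Polynomial.C (yg p (zetaZ p hp) h) *
      (Polynomial.X - Polynomial.C (jg p (zetaZ p hp) h)))) (by
      rw [hS₀, Polynomial.map_sum]
      refine Finset.sum_congr rfl fun g _ => ?_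
      rw [Polynomial.map_prod]
      refine Finset.prod_congr rfl fun h _ => ?_
      rw [Polynomial.map_mul, Polynomial.map_sub, Polynomial.map_X, Polynomial.map_C,
        Polynomial.map_C, coeffMap_yg, coeffMap_jg, map_zetaZ])
  have hΦ' : Φ.map (evZ p) = ∏ g, (Polynomial.X - Polynomial.C (jg p (zetaC p) g)) := by
    rw [← map_map_evQ, hΦ, hΦ₀]
  have hΨ' : Ψ.map (evZ p) = ∏ g, (Polynomial.X - Polynomial.C (yg p (zetaC p) g)) := by
    rw [← map_map_evQ, hΨ, hΨ₀]
  have hS' : S.map (evZ p) = ∑ g, ∏ h ∈ Finset.univ.erase g,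
      (Polynomial.C (yg p (zetaC p) h) *
        (Polynomial.X - Polynomial.C (jg p (zetaC p) h))) := by
    rw [← map_map_evQ, hS, hS₀]
  -- `κ` as an integer
  obtain ⟨κZ, hκZ⟩ : ∃ z : ℤ, (z : ℚ) = κ := by
    rcases eq_or_eq_neg_of_sq_eq_sq κ ((p : ℚ) ^ 12) (by rw [hκ2]; ring) with h | h
    · exact ⟨(p : ℤ) ^ 12, by rw [h]; push_cast; rfl⟩
    · exact ⟨-(p : ℤ) ^ 12, by rw [h]; push_cast; rfl⟩
  have hκC : (HahnSeries.C ((κZ : ℤ) : ℂ) : LaurentSeries ℂ) = HahnSeries.C (κ : ℂ) := by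
    rw [← hκZ]; push_cast; rfl
  have hcard : Fintype.card (Option (Fin p)) = p + 1 := by
    rw [Fintype.card_option, Fintype.card_fin]
  refine ⟨ModEqData.mk Φ Ψ S κZ ?_ ?_ ?_ ?_ ?_ ?_ ?_ ?_ ?_ ?_ ?_⟩
  · refine Polynomial.monic_of_injective (evZ_injective p) ?_
    rw [hΦ']
    exact Polynomial.monic_prod_of_monic _ _ fun g _ => Polynomial.monic_X_sub_C _
  · rw [← Polynomial.natDegree_map_eq_of_injective (evZ_injective p), hΦ',
      Polynomial.natDegree_prod_of_monic _ _ fun g _ => Polynomial.monic_X_sub_C _]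
    simp [hcard]
  · refine Polynomial.monic_of_injective (evZ_injective p) ?_
    rw [hΨ']
    exact Polynomial.monic_prod_of_monic _ _ fun g _ => Polynomial.monic_X_sub_C _
  · rw [← Polynomial.natDegree_map_eq_of_injective (evZ_injective p), hΨ',
      Polynomial.natDegree_prod_of_monic _ _ fun g _ => Polynomial.monic_X_sub_C _]
    simp [hcard]
  · have h2 : ((κZ : ℚ)) ^ 2 = (p : ℚ) ^ 24 := by rw [hκZ]; exact hκ2
    exact_mod_cast h2
  · apply evZ_injective p
    have h1 : evZ p (Ψ.coeff 0) = (Ψ.map (evZ p)).coeff 0 := (Polynomial.coeff_map _ _).symm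
    rw [h1, hΨ', coeff_zero_prod_X_sub_C]
    have h2 : ∏ g, (-yg p (zetaC p) g) = (-1) ^ (p + 1) * ∏ g, yg p (zetaC p) g := by
      rw [← hcard, ← Finset.card_univ, ← Finset.prod_const, ← Finset.prod_mul_distrib]
      exact Finset.prod_congr rfl fun g _ => (neg_one_mul _).symm
    rw [h2, hκ, evZ, evalAt_C, ← hκC]
    simp only [map_mul, map_pow, map_neg, map_one, eq_intCast]
  · apply theta_injective p
    show qExpand ℂ p (ιC _) = qExpand ℂ p (ιC 0)
    rw [theta_eval₂, theta_jqNModC, hΦ', Polynomial.eval_prod, map_zero, map_zero]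
    exact Finset.prod_eq_zero (Finset.mem_univ none) (by simp)
  · apply ιC_injective
    rw [ιC_eval₂, ιC_jqNModC, map_zero]
    show (Φ.map (evZ p)).eval (ιC (jqModC ℤ)) = 0
    rw [ιC_jqModC p hp, hΦ', Polynomial.eval_prod]
    exact Finset.prod_eq_zero (Finset.mem_univ (some ⟨0, hp.pos⟩)) (by simp)
  · apply theta_injective p
    show qExpand ℂ p (ιC _) = qExpand ℂ p (ιC 0)
    rw [theta_eval₂, theta_yInf, hΨ', Polynomial.eval_prod, map_zero, map_zero]
    exact Finset.prod_eq_zero (Finset.mem_univ none) (by simp)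
  · apply theta_injective p
    show qExpand ℂ p (ιC _) = qExpand ℂ p (ιC _)
    rw [map_mul, map_mul, map_mul, map_mul, theta_eval₂, theta_eval₂, theta_yInf, theta_jqNModC,
      hS', mul_eval_sum_prod_erase (yg p (zetaC p)) (jg p (zetaC p)) none, hκ,
      ← Polynomial.derivative_map, hΦ']
    congr 1
    unfold ιC
    rw [coeffMap_C, qExpand_C, eq_intCast]
    exact hκC.symm
  · set F := (Polynomial.derivative Φ).eval₂ (evalAt (RingHom.id ℤ) (jqModC ℤ)) (jqNModC ℤ p)
      with hF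
    have hΘ : qExpand ℂ p (ιC F) =
        ∏ g ∈ Finset.univ.erase none, (jg p (zetaC p) none - jg p (zetaC p) g) := by
      rw [hF, theta_eval₂, theta_jqNModC, ← Polynomial.derivative_map, hΦ',
        eval_derivative_prod_X_sub_C Finset.univ _ (Finset.mem_univ none)]
    have hlead : IsLead (qExpand ℂ p (ιC F)) ((p : ℤ) * (-((p : ℤ) * p))) 1 := by
      rw [hΘ]
      have h := IsLead.prod (Finset.univ.erase (none : Option (Fin p)))
        (fun g => jg p (zetaC p) none - jg p (zetaC p) g) (fun _ => -((p : ℤ) * p))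
        (fun _ => (1 : ℂ)) (fun g hg => by
          cases g with
          | none => exact absurd rfl (Finset.ne_of_mem_erase hg)
          | some b => exact isLead_jg_none_sub p hp b)
      have hc : (Finset.univ.erase (none : Option (Fin p))).card = p := by
        rw [Finset.card_erase_of_mem (Finset.mem_univ _), Finset.card_univ, hcard,
          Nat.add_sub_cancel]
      rw [Finset.sum_const, Finset.prod_const_one, hc, nsmul_eq_mul] at h
      exact h
    have h1 := hlead.coeff_eq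
    rw [qExpand_coeff_mul] at h1
    have h2 : ((F.coeff (-((p : ℤ) * p)) : ℤ) : ℂ) = 1 := h1
    exact_mod_cast h2

end Fermat.Agent.S28.ModEq
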