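import Mathlib

/-!
# Newton's identities: power sums in a `ℚ`-subalgebra force symmetric functions into it

Abstract step of the formal modular equation (S28, WP5): if all power sums `∑ i, u i ^ k`
(`k ≥ 1`) of a finite family in a commutative `ℚ`-algebra lie in a `ℚ`-subalgebra `B`, then so do
all elementary symmetric functions, hence all coefficients of `∏ i, (X - C (u i))`, the product
`∏ i, u i` and the sum `∑ i, ∏ j ≠ i, u j`.
-/

set_option autoImplicit false

namespace Fermat.Agent.S28.ModEq

open Finset Polynomial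

variable {S : Type*} [CommRing S] [Algebra ℚ S] (B : Subalgebra ℚ S)
variable {σ : Type*} [Fintype σ] (u : σ → S)

/-- Elementary symmetric functions of a family whose power sums lie in a `ℚ`-subalgebra lie in
that subalgebra (Newton's identities). -/
theorem multiset_esymm_mem_of_psum_mem (h : ∀ k : ℕ, 1 ≤ k → ∑ i, u i ^ k ∈ B) (n : ℕ) :
    (Finset.univ.val.map u).esymm n ∈ B := by
  classical
  induction n using Nat.strong_induction_on with
  | _ n ih =>
    rcases Nat.eq_zero_or_pos n with rfl | hn
    · simp [Multiset.esymm]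
    · have hN := congrArg (MvPolynomial.aeval (R := ℚ) u) (MvPolynomial.mul_esymm_eq_sum σ ℚ n)
      simp only [map_mul, map_natCast, map_pow, map_neg, map_one, map_sum,
        MvPolynomial.aeval_esymm_eq_multiset_esymm] at hN
      have hps : ∀ m : ℕ, MvPolynomial.aeval (R := ℚ) u (MvPolynomial.psum σ ℚ m)
          = ∑ i, u i ^ m := by
        intro m
        simp [MvPolynomial.psum]
      have hmem : (n : S) * (Finset.univ.val.map u).esymm n ∈ B := by
        rw [hN]
        refine B.mul_mem (B.pow_mem (B.neg_mem B.one_mem) _) (B.sum_mem ?_)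
        intro a ha
        rw [Finset.mem_filter] at ha
        have ha1 : a.1 + a.2 = n := Finset.HasAntidiagonal.mem_antidiagonal.mp ha.1
        refine B.mul_mem (B.mul_mem (B.pow_mem (B.neg_mem B.one_mem) _) (ih a.1 ha.2)) ?_
        rw [hps]
        exact h a.2 (by omega)
      have hn0 : (n : ℚ) ≠ 0 := Nat.cast_ne_zero.mpr hn.ne'
      have hsm := B.smul_mem hmem ((n : ℚ)⁻¹)
      have hcast : ((n : ℚ)⁻¹) • ((n : S) * (Finset.univ.val.map u).esymm n)
          = (Finset.univ.val.map u).esymm n := by
        have h1 : (n : S) = algebraMap ℚ S (n : ℚ) := by simp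
        rw [h1, ← Algebra.smul_def, smul_smul, inv_mul_cancel₀ hn0, one_smul]
      rwa [hcast] at hsm

/-- All coefficients of `∏ i, (X - C (u i))` lie in `B` when the power sums of `u` do. -/
theorem prod_X_sub_C_coeff_mem_of_psum_mem (h : ∀ k : ℕ, 1 ≤ k → ∑ i, u i ^ k ∈ B) (k : ℕ) :
    (∏ i, (Polynomial.X - Polynomial.C (u i))).coeff k ∈ B := by
  classical
  rcases subsingleton_or_nontrivial S with hS | hS
  · have h0 : (∏ i, (Polynomial.X - Polynomial.C (u i))).coeff k = 0 := Subsingleton.elim _ _
    rw [h0]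
    exact B.zero_mem
  have hprod : (∏ i, (Polynomial.X - Polynomial.C (u i)))
      = ((Finset.univ.val.map u).map fun t => Polynomial.X - Polynomial.C t).prod := by
    rw [Multiset.map_map]
    rfl
  rw [hprod]
  by_cases hk : k ≤ Multiset.card (Finset.univ.val.map u)
  · rw [Multiset.prod_X_sub_C_coeff _ hk]
    exact B.mul_mem (B.pow_mem (B.neg_mem B.one_mem) _) (multiset_esymm_mem_of_psum_mem B u h _)
  · have hdeg : (((Finset.univ.val.map u).map fun t => Polynomial.X - Polynomial.C t).prod).natDegree
        < k := by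
      rw [Polynomial.natDegree_multiset_prod_X_sub_C_eq_card]
      exact not_le.mp hk
    rw [Polynomial.coeff_eq_zero_of_natDegree_lt hdeg]
    exact B.zero_mem

/-- The product of a family lies in `B` when its power sums do. -/
theorem prod_mem_of_psum_mem (h : ∀ k : ℕ, 1 ≤ k → ∑ i, u i ^ k ∈ B) : ∏ i, u i ∈ B := by
  classical
  have h0 := prod_X_sub_C_coeff_mem_of_psum_mem B u h 0
  rw [Polynomial.coeff_zero_eq_eval_zero, Polynomial.eval_prod] at h0
  simp only [Polynomial.eval_sub, Polynomial.eval_X, Polynomial.eval_C, zero_sub] at h0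
  rw [Finset.prod_neg] at h0
  have h1 := B.mul_mem (B.pow_mem (B.neg_mem B.one_mem) (Fintype.card σ)) h0
  rwa [Finset.card_univ, ← mul_assoc, ← mul_pow, neg_one_mul, neg_neg, one_pow, one_mul] at h1

/-- The sum `∑ i, ∏ j ≠ i, u j` (the `(n-1)`-st elementary symmetric function) lies in `B` when
the power sums of `u` do. -/
theorem sum_prod_erase_mem_of_psum_mem [DecidableEq σ]
    (h : ∀ k : ℕ, 1 ≤ k → ∑ i, u i ^ k ∈ B) :
    ∑ i, ∏ j ∈ Finset.univ.erase i, u j ∈ B := by
  have h1 := prod_X_sub_C_coeff_mem_of_psum_mem B u h 1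
  have hder : (∏ i, (Polynomial.X - Polynomial.C (u i))).coeff 1
      = ∑ i, ∏ j ∈ Finset.univ.erase i, (- u j) := by
    have e1 : (∏ i, (Polynomial.X - Polynomial.C (u i))).coeff 1
        = (Polynomial.derivative (∏ i, (Polynomial.X - Polynomial.C (u i)))).eval 0 := by
      rw [← Polynomial.coeff_zero_eq_eval_zero, Polynomial.coeff_derivative]
      simp
    rw [e1, Polynomial.derivative_prod_finset]
    simp [Polynomial.eval_finsetSum, Polynomial.eval_prod]
  rw [hder] at h1
  have hcard : ∀ i : σ, ∏ j ∈ Finset.univ.erase i, (- u j)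
      = (-1) ^ (Fintype.card σ - 1) * ∏ j ∈ Finset.univ.erase i, u j := by
    intro i
    rw [Finset.prod_neg, Finset.card_erase_of_mem (Finset.mem_univ i), Finset.card_univ]
  rw [Finset.sum_congr rfl fun i _ => hcard i, ← Finset.mul_sum] at h1
  have h2 := B.mul_mem (B.pow_mem (B.neg_mem B.one_mem) (Fintype.card σ - 1)) h1
  rwa [← mul_assoc, ← mul_pow, neg_one_mul, neg_neg, one_pow, one_mul] at h2

end Fermat.Agent.S28.ModEq
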