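import Fermat.Agent.S28.ModEq.Data
import Fermat.Agent.S28.FormalHecke

/-!
# S28, WP5: mixed power sums of the conjugates over `ℂ`

Using the analytic input (`FormalHecke.exists_formalHecke_eq_sum`), the mixed power sums
`∑_g z_g ^ a * y_g ^ (m - a)` of the conjugates over `ℂ((t))` are polynomials with rational
coefficients in `j (t ^ p)`.
-/

set_option autoImplicit false

noncomputable section

namespace Fermat.Agent.S28.ModEq

open HahnSeries ModularCurve

/-- Change of coefficients commutes with the formal Hecke operator. -/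
theorem heckeA_map {A B : Type*} [CommRing A] [CommRing B] (φ : A →+* B) (p : ℕ) (k : ℕ)
    (f : PowerSeries A) : heckeA p k (f.map φ) = (heckeA p k f).map φ := by
  ext n
  simp only [heckeA, PowerSeries.coeff_mk, PowerSeries.coeff_map, map_add]
  split_ifs <;> simp

theorem formalHecke_eq_heckeA (k p : ℕ) (f : PowerSeries ℚ) :
    FormalHecke.formalHecke k p f = heckeA p k f := rfl

/-- The basis monomials over `ℂ`. -/
theorem basisQ_map (m b : ℕ) :
    (FormalHecke.basisQ m b).map (algebraMap ℚ ℂ) =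
      (eisenstein4.map (Int.castRingHom ℂ)) ^ (3 * b) *
        (PowerSeries.X * dedekindEtaUnit.map (Int.castRingHom ℂ)) ^ (m - b) := by
  unfold FormalHecke.basisQ FormalHecke.E4Q FormalHecke.DQ
  rw [map_mul, map_pow, map_pow, map_map_intCast, map_map_intCast, map_mul, PowerSeries.map_X]

theorem ofPowerSeries_basis (A : Type*) [CommRing A] (m b : ℕ) :
    HahnSeries.ofPowerSeries ℤ A ((eisenstein4.map (Int.castRingHom A)) ^ (3 * b) *
      (PowerSeries.X * dedekindEtaUnit.map (Int.castRingHom A)) ^ (m - b)) =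
      EA A ^ b * DA A ^ (m - b) := by
  unfold EA DA
  rw [RingHom.map_mul, RingHom.map_pow, RingHom.map_pow, RingHom.map_mul,
    HahnSeries.ofPowerSeries_X, pow_mul]

theorem qExpand_basis_mul_DbaseInv_pow (A : Type*) [CommRing A] (p : ℕ) [NeZero p] (m b : ℕ)
    (hb : b ≤ m) :
    qExpand A p (EA A ^ b * DA A ^ (m - b)) * DbaseInv A p ^ m = jbase A p ^ b := by
  obtain ⟨d, rfl⟩ := Nat.exists_eq_add_of_le hb
  rw [Nat.add_sub_cancel_left, map_mul, map_pow, map_pow, ← qExpand_EA_mul_DbaseInv]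
  have h1 := qExpand_DA_mul_DbaseInv (A := A) p
  calc qExpand A p (EA A) ^ b * qExpand A p (DA A) ^ d * DbaseInv A p ^ (b + d)
      = (qExpand A p (EA A) * DbaseInv A p) ^ b * (qExpand A p (DA A) * DbaseInv A p) ^ d := by
        ring
    _ = (qExpand A p (EA A) * DbaseInv A p) ^ b := by rw [h1, one_pow, mul_one]

/-- The primitive `p`-th root of unity used internally. -/
def zetaC (p : ℕ) : ℂˣ :=
  Units.mk0 (Complex.exp (2 * Real.pi * Complex.I / p)) (Complex.exp_ne_zero _)

theorem zetaC_sum (p : ℕ) (hp : p.Prime) :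
    ∑ b ∈ Finset.range p, ((zetaC p : ℂˣ) : ℂ) ^ b = 0 :=
  (Complex.isPrimitiveRoot_exp p hp.ne_zero).geom_sum_eq_zero hp.one_lt

theorem zetaC_pow (p : ℕ) (hp : p.Prime) : ((zetaC p : ℂˣ) : ℂ) ^ p = 1 :=
  (Complex.isPrimitiveRoot_exp p hp.ne_zero).pow_eq_one

/-- The mixed power sums of the conjugates over `ℂ` are rational polynomials in `j (t ^ p)`. -/
theorem exists_poly_sum_zg_pow_mul_yg_pow (p : ℕ) [NeZero p] (hp : p.Prime) (a m : ℕ)
    (ha : a ≤ m) (hm : 1 ≤ m) :
    ∃ P : Polynomial ℚ, ∑ g, zg p (zetaC p) g ^ a * yg p (zetaC p) g ^ (m - a) =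
      evalAt (algebraMap ℚ ℂ) (jbase ℂ p) P := by
  obtain ⟨c, hc⟩ := FormalHecke.exists_formalHecke_eq_sum p hp m a ha
  refine ⟨Polynomial.C (p : ℚ) * ∑ b : Fin (m + 1), Polynomial.C (c b) * Polynomial.X ^ (b : ℕ), ?_⟩
  rw [sum_zg_pow_mul_yg_pow p _ hp (zetaC_sum p hp) a m ha hm, ← basisQ_map, heckeA_map,
    ← formalHecke_eq_heckeA, hc, map_sum, map_sum, map_sum, map_mul, evalAt_C, map_natCast,
    map_sum, mul_assoc, Finset.sum_mul]
  congr 1
  refine Finset.sum_congr rfl fun b _ => ?_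
  rw [PowerSeries.smul_eq_C_mul, map_mul, PowerSeries.map_C, basisQ_map, RingHom.map_mul,
    HahnSeries.ofPowerSeries_C, ofPowerSeries_basis, map_mul, qExpand_C, mul_assoc,
    qExpand_basis_mul_DbaseInv_pow ℂ p m b (Nat.lt_succ_iff.mp b.2), map_mul, evalAt_C, map_pow,
    evalAt_X]

end Fermat.Agent.S28.ModEq
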